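import Fermat.Agent.S27.H747.LattDatum

/-!
# S27 / PIC-CL (helper747): the two charts cover all places (valuative criterion)

If `R` is finite over `K[x]` and `x ∈ O_v`, then `R ⊆ O_v` (valuation rings are integrally
closed).  Hence for `x y = 1` every place lies on the chart of `x` or on the chart of `y`.
-/

set_option autoImplicit false
set_option linter.unusedSectionVars false
set_option linter.unusedVariables false
set_option linter.style.longLine false
set_option linter.style.haveILetI false

universe u

namespace Fermat.Agent.S27.H747

open AlgebraicCurve IsDedekindDomain Fermat.Agent.Lib.FF Fermat.Agent.S25 Polynomial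

noncomputable section

variable {K : Type u} [Field K] {F : Type u} [Field F] [Algebra K F]

theorem mem_of_finite_aeval {R : Type u} [CommRing R] [Algebra K R] [Algebra R F]
    [IsScalarTower K R F] (x : R)
    (hfin : (Polynomial.aeval x : K[X] →ₐ[K] R).Finite) (v : Place K F)
    (hx : algebraMap R F x ∈ v.toValuationSubring) (r : R) :
    algebraMap R F r ∈ v.toValuationSubring := by
  have hint : ((Polynomial.aeval x : K[X] →ₐ[K] R) : K[X] →+* R).IsIntegralElem r :=
    (RingHom.Finite.to_isIntegral hfin) r
  obtain ⟨p, hp, hpr⟩ := hint
  let φ : K[X] →+* v.toValuationSubring :=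
    Polynomial.eval₂RingHom (algebraMap K v.toValuationSubring) ⟨algebraMap R F x, hx⟩
  have hφ : (algebraMap v.toValuationSubring F).comp φ =
      (algebraMap R F).comp ((Polynomial.aeval x : K[X] →ₐ[K] R) : K[X] →+* R) := by
    apply Polynomial.ringHom_ext
    · intro a
      simp only [φ, RingHom.comp_apply, Polynomial.coe_eval₂RingHom, Polynomial.eval₂_C,
        RingHom.coe_coe, Polynomial.aeval_C]
      rw [← IsScalarTower.algebraMap_apply K R F]
      rfl
    · simp only [φ, RingHom.comp_apply, Polynomial.coe_eval₂RingHom, Polynomial.eval₂_X,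
        RingHom.coe_coe, Polynomial.aeval_X]
      rfl
  have hI : IsIntegral v.toValuationSubring (algebraMap R F r) := by
    refine ⟨p.map φ, hp.map φ, ?_⟩
    rw [Polynomial.eval₂_map, hφ, ← Polynomial.hom_eval₂, hpr, map_zero]
  obtain ⟨a, ha⟩ := (IsIntegrallyClosed.isIntegral_iff (R := v.toValuationSubring) (K := F)).mp hI
  rw [← ha]
  exact a.2

end

end Fermat.Agent.S27.H747
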