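import Fermat.Agent.S27.H747.LattLoc
import Fermat.Agent.S25.DefsAlg

/-!
# S27 / PIC-CL (helper747): the gluing datum `O(D)` of a divisor

Abstract two-chart setting: Dedekind domains `R₀, R₁ ⊆ R₀₁ ⊆ F` with fraction field `F`,
`R₀₁ = R₀[1/x] = R₁[1/y]`, `x y = 1`, and every place of `F/K` lies on one of the two charts.
`latticeDatum h D = (latt R₀ D, latt R₁ D, latt R₀₁ D)` with the inclusions.
-/

set_option autoImplicit false
set_option linter.unusedSectionVars false
set_option linter.unusedVariables false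
set_option linter.style.longLine false

universe u

namespace Fermat.Agent.S27.H747

open AlgebraicCurve IsDedekindDomain Fermat.Agent.Lib.FF Fermat.Agent.S25
open scoped nonZeroDivisors

noncomputable section

variable {K : Type u} [Field K] {F : Type u} [Field F] [Algebra K F]
  {R₀ R₁ R₀₁ : Type u} [CommRing R₀] [CommRing R₁] [CommRing R₀₁]
  [Algebra K R₀] [Algebra K R₁] [Algebra K R₀₁] [Algebra R₀ R₀₁] [Algebra R₁ R₀₁]
  [IsScalarTower K R₀ R₀₁] [IsScalarTower K R₁ R₀₁]
  [Algebra R₀ F] [Algebra R₁ F] [Algebra R₀₁ F]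
  [IsScalarTower R₀ R₀₁ F] [IsScalarTower R₁ R₀₁ F]
  [IsScalarTower K R₀ F] [IsScalarTower K R₁ F] [IsScalarTower K R₀₁ F]
  [IsDedekindDomain R₀] [IsDedekindDomain R₁] [IsDedekindDomain R₀₁]
  [IsFractionRing R₀ F] [IsFractionRing R₁ F] [IsFractionRing R₀₁ F]

variable (K F R₀₁) in
/-- The two-chart cospan `R₀ → R₀₁ ← R₁` inside `F` covers all places of `F/K`. -/
structure IsFFCospan (x : R₀) (y : R₁) : Prop where
  away₀ : IsLocalization.Away x R₀₁
  away₁ : IsLocalization.Away y R₀₁
  mul_eq_one : algebraMap R₀ R₀₁ x * algebraMap R₁ R₀₁ y = 1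
  cover : ∀ v : Place K F, OnChart R₀ v ∨ OnChart R₁ v

variable {x : R₀} {y : R₁}

theorem IsFFCospan.onChart₀₁ (h : IsFFCospan K F R₀₁ x y) (v : Place K F) (h₀ : OnChart R₀ v)
    (h₁ : OnChart R₁ v) : OnChart R₀₁ v := by
  haveI := h.away₀
  refine onChart_of_ord_x_eq_zero x v h₀ ?_
  have hxy : algebraMap R₀ F x * algebraMap R₁ F y = 1 := by
    rw [IsScalarTower.algebraMap_apply R₀ R₀₁ F, IsScalarTower.algebraMap_apply R₁ R₀₁ F,
      ← map_mul, h.mul_eq_one, map_one]
  have h3 := v.ord_mul (left_ne_zero_of_mul_eq_one hxy) (right_ne_zero_of_mul_eq_one hxy)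
  rw [hxy, Place.ord_one] at h3
  have h4 := ord_nonneg_of_onChart v h₀ x
  have h5 := ord_nonneg_of_onChart v h₁ y
  omega

theorem invertible_latt {R : Type u} [CommRing R] [IsDedekindDomain R] [Algebra R F]
    [IsFractionRing R F] [Algebra K R] [IsScalarTower K R F] (D : Divisor K F) :
    Module.Invertible R (latt R D) := by
  have hu := isUnit_latt (R := R) D
  have : Module.Invertible R (hu.unit : Submodule R F) := inferInstance
  exact Module.Invertible.congr (LinearEquiv.ofEq _ _ hu.unit_spec)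

/-- The gluing datum `O(D)` of a divisor. -/
def latticeDatum (h : IsFFCospan K F R₀₁ x y) (D : Divisor K F) : GlueDatum K R₀ R₁ R₀₁ where
  N₀ := latt R₀ D
  N₁ := latt R₁ D
  N₀₁ := latt R₀₁ D
  r₀ := lattIncl D
  r₁ := lattIncl D
  isBaseChange₀ := haveI := h.away₀; isBaseChange_lattIncl x D
  isBaseChange₁ := haveI := h.away₁; isBaseChange_lattIncl y D
  invertible₀ := invertible_latt D
  invertible₁ := invertible_latt D

end

end Fermat.Agent.S27.H747
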