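import Fermat.Agent.S27.H747.LattDatum
import Fermat.Agent.S25.H565.GlueHom
import Fermat.Agent.S25.H310.DegreeInvariance
import Fermat.Prelude.Def_AlgebraicCurve_IsCurveOver

/-!
# S27 / PIC-CL (helper747): `deg O(D) = deg D`

One-point steps: the inclusion `O(D) → O(D + v)` has cokernels of dimension `1` on the charts
containing `v` and `0` on the others, so `χ(O(D + v)) = χ(O(D)) + 1` (S25 `GlueHom.euler_eq`).
-/

set_option autoImplicit false
set_option linter.unusedSectionVars false
set_option linter.unusedVariables false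
set_option linter.style.longLine false
set_option linter.style.haveILetI false

universe u

namespace Fermat.Agent.S27.H747

open AlgebraicCurve IsDedekindDomain Fermat.Agent.Lib.FF Fermat.Agent.S25
open scoped nonZeroDivisors TensorProduct

noncomputable section

variable {K : Type u} [Field K] {F : Type u} [Field F] [Algebra K F]

/-- Over an algebraically closed constant field the residue field of a place is `K`. -/
theorem exists_const_residue [IsAlgClosed K] [IsCurveOver K F] (v : Place K F) (u : F)
    (hu : 0 ≤ v.ord u) :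
    ∃ c : K, u = algebraMap K F c ∨ 0 < v.ord (u - algebraMap K F c) := by
  have hmem : u ∈ v.toValuationSubring := Fermat.Agent.S24.FF.mem_of_ord_nonneg v hu
  haveI : Module.Finite K v.ResidueField := IsCurveOver.finiteResidue v
  haveI : Algebra.IsIntegral K v.ResidueField := Algebra.IsIntegral.of_finite K v.ResidueField
  have hbij : Function.Bijective (algebraMap K v.ResidueField) :=
    IsAlgClosed.algebraMap_bijective_of_isIntegral
  obtain ⟨c, hc⟩ := hbij.2 (IsLocalRing.residue v.toValuationSubring ⟨u, hmem⟩)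
  refine ⟨c, ?_⟩
  by_cases heq : u = algebraMap K F c
  · exact Or.inl heq
  right
  have hne : u - algebraMap K F c ≠ 0 := sub_ne_zero.mpr heq
  rw [Fermat.Agent.S24.FF.ord_pos_iff_mem_nonunits v hne,
    ValuationSubring.mem_nonunits_iff_exists_mem_maximalIdeal]
  refine ⟨sub_mem hmem (v.algebraMap_mem' c), ?_⟩
  have h1 : IsLocalRing.residue v.toValuationSubring
      (⟨u, hmem⟩ - algebraMap K v.toValuationSubring c) = 0 := by
    rw [map_sub, ← hc, sub_eq_zero]
    rfl
  have h2 : (⟨u, hmem⟩ - algebraMap K v.toValuationSubring c : v.toValuationSubring) ∈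
      IsLocalRing.maximalIdeal v.toValuationSubring := by
    rwa [IsLocalRing.residue_eq_zero_iff] at h1
  exact h2

/-! ### One chart -/

section Chart

variable {R : Type u} [CommRing R] [IsDedekindDomain R] [Algebra R F] [IsFractionRing R F]
  [Algebra K R] [IsScalarTower K R F]

theorem latt_le_add_single (D : Divisor K F) (v : Place K F) {g : F} (hg : g ∈ latt R D) :
    g ∈ latt R (D + Finsupp.single v 1) := by
  classical
  rw [mem_latt_iff] at hg ⊢
  rcases hg with hg | hg
  · exact Or.inl hg
  refine Or.inr fun w hw => ?_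
  have := hg w hw
  rw [Finsupp.add_apply, Finsupp.single_apply]
  split_ifs <;> omega

/-- The inclusion `latt R D → latt R (D + v)`. -/
def lattStep (D : Divisor K F) (v : Place K F) :
    latt R D →ₗ[R] latt R (D + Finsupp.single v 1) where
  toFun g := ⟨g.1, latt_le_add_single D v g.2⟩
  map_add' _ _ := rfl
  map_smul' _ _ := rfl

@[simp] theorem lattStep_coe (D : Divisor K F) (v : Place K F) (g : latt R D) :
    ((lattStep D v g : latt R (D + Finsupp.single v 1)) : F) = g := rfl

theorem lattStep_injective (D : Divisor K F) (v : Place K F) :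
    Function.Injective (lattStep (R := R) D v) := fun g g' hgg' =>
  Subtype.ext (congrArg (fun z : latt R (D + Finsupp.single v 1) => (z : F)) hgg')

theorem mem_range_lattStep (D : Divisor K F) (v : Place K F)
    (g : latt R (D + Finsupp.single v 1)) :
    g ∈ LinearMap.range ((lattStep (R := R) D v).restrictScalars K) ↔ (g : F) ∈ latt R D := by
  constructor
  · rintro ⟨g', rfl⟩
    exact g'.2
  · intro hg
    exact ⟨⟨g, hg⟩, rfl⟩

theorem range_lattStep_of_not_onChart (D : Divisor K F) (v : Place K F) (hv : ¬ OnChart R v) :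
    LinearMap.range ((lattStep (R := R) D v).restrictScalars K) = ⊤ := by
  classical
  rw [eq_top_iff]
  rintro g -
  rw [mem_range_lattStep]
  have hg := g.2
  rw [mem_latt_iff] at hg ⊢
  rcases hg with hg | hg
  · exact Or.inl hg
  refine Or.inr fun w hw => ?_
  have := hg w hw
  rw [Finsupp.add_apply, Finsupp.single_apply] at this
  have hvw : ¬ v = w := fun hvw => hv (hvw ▸ hw)
  rw [if_neg hvw] at this
  omega

/-- The cokernel of the one-point step is trivial if the point is not on the chart. -/
theorem finrank_coker_lattStep_of_not_onChart (D : Divisor K F) (v : Place K F)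
    (hv : ¬ OnChart R v) :
    FiniteDimensional K (latt R (D + Finsupp.single v 1) ⧸
        LinearMap.range ((lattStep (R := R) D v).restrictScalars K)) ∧
      Module.finrank K (latt R (D + Finsupp.single v 1) ⧸
        LinearMap.range ((lattStep (R := R) D v).restrictScalars K)) = 0 := by
  haveI : Subsingleton (latt R (D + Finsupp.single v 1) ⧸
      LinearMap.range ((lattStep (R := R) D v).restrictScalars K)) := by
    rw [Submodule.Quotient.subsingleton_iff]
    exact range_lattStep_of_not_onChart D v hv
  exact ⟨inferInstance, Module.finrank_zero_of_subsingleton⟩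

/-- The cokernel of the one-point step is one-dimensional if the point is on the chart. -/
theorem finrank_coker_lattStep_of_onChart [IsAlgClosed K] [IsCurveOver K F]
    (D : Divisor K F) (v : Place K F) (hv : OnChart R v) :
    FiniteDimensional K (latt R (D + Finsupp.single v 1) ⧸
        LinearMap.range ((lattStep (R := R) D v).restrictScalars K)) ∧
      Module.finrank K (latt R (D + Finsupp.single v 1) ⧸
        LinearMap.range ((lattStep (R := R) D v).restrictScalars K)) = 1 := by
  classical
  obtain ⟨g₂, hg₂, hg₂0, hord⟩ := exists_mem_latt_ord_eq (R := R) (D + Finsupp.single v 1) v hv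
  rw [Finsupp.add_apply, Finsupp.single_apply, if_pos rfl] at hord
  set W := LinearMap.range ((lattStep (R := R) D v).restrictScalars K) with hW
  have hnz : (Submodule.Quotient.mk (⟨g₂, hg₂⟩ : latt R (D + Finsupp.single v 1)) :
      latt R (D + Finsupp.single v 1) ⧸ W) ≠ 0 := by
    intro h0
    rw [Submodule.Quotient.mk_eq_zero, hW, mem_range_lattStep, mem_latt_iff] at h0
    rcases h0 with h0 | h0
    · exact hg₂0 h0
    · have := h0 v hv
      simp only at this
      omega
  have hspan : ∀ w : latt R (D + Finsupp.single v 1) ⧸ W, ∃ c : K,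
      c • (Submodule.Quotient.mk (⟨g₂, hg₂⟩ : latt R (D + Finsupp.single v 1)) :
        latt R (D + Finsupp.single v 1) ⧸ W) = w := by
    intro w
    obtain ⟨g₁, rfl⟩ := Submodule.Quotient.mk_surjective W w
    rcases eq_or_ne (g₁ : F) 0 with hg₁0 | hg₁0
    · refine ⟨0, ?_⟩
      rw [zero_smul]
      have : g₁ = 0 := Subtype.ext hg₁0
      rw [this, Submodule.Quotient.mk_zero]
    have hg₁ := g₁.2
    rw [mem_latt_iff] at hg₁
    rcases hg₁ with hg₁ | hg₁
    · exact absurd hg₁ hg₁0
    have hordg₁ := hg₁ v hv
    rw [Finsupp.add_apply, Finsupp.single_apply, if_pos rfl] at hordg₁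
    have hu : 0 ≤ v.ord ((g₁ : F) * g₂⁻¹) := by
      rw [v.ord_mul hg₁0 (inv_ne_zero hg₂0), Place.ord_inv]
      omega
    obtain ⟨c, hc⟩ := exists_const_residue v _ hu
    refine ⟨c, ?_⟩
    rw [← Submodule.Quotient.mk_smul, eq_comm, Submodule.Quotient.eq, hW, mem_range_lattStep]
    have hval : ((g₁ - c • (⟨g₂, hg₂⟩ : latt R (D + Finsupp.single v 1)) :
        latt R (D + Finsupp.single v 1)) : F) = ((g₁ : F) * g₂⁻¹ - algebraMap K F c) * g₂ := by
      rw [sub_mul, mul_assoc, inv_mul_cancel₀ hg₂0, mul_one]
      show (g₁ : F) - c • g₂ = _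
      rw [Algebra.smul_def]
    rcases hc with hc | hc
    · rw [hval, hc, sub_self, zero_mul]
      exact zero_mem _
    have hne : (g₁ : F) * g₂⁻¹ - algebraMap K F c ≠ 0 := by
      intro h0
      rw [h0, Place.ord_zero] at hc
      exact lt_irrefl _ hc
    have hmem := (g₁ - c • (⟨g₂, hg₂⟩ : latt R (D + Finsupp.single v 1)) :
        latt R (D + Finsupp.single v 1)).2
    rw [mem_latt_iff] at hmem ⊢
    rw [hval] at hmem ⊢
    rcases hmem with hmem | hmem
    · exact Or.inl hmem
    refine Or.inr fun w hw => ?_
    by_cases hvw : v = w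
    · subst hvw
      rw [v.ord_mul hne hg₂0]
      omega
    · have := hmem w hw
      rw [Finsupp.add_apply, Finsupp.single_apply, if_neg hvw] at this
      omega
  have hrank := (finrank_eq_one_iff_of_nonzero' _ hnz).mpr hspan
  exact ⟨Module.finite_of_finrank_pos (by omega), hrank⟩

end Chart

/-! ### The cospan -/

section Cospan

variable {R₀ R₁ R₀₁ : Type u} [CommRing R₀] [CommRing R₁] [CommRing R₀₁]
  [Algebra K R₀] [Algebra K R₁] [Algebra K R₀₁] [Algebra R₀ R₀₁] [Algebra R₁ R₀₁]
  [IsScalarTower K R₀ R₀₁] [IsScalarTower K R₁ R₀₁]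
  [Algebra R₀ F] [Algebra R₁ F] [Algebra R₀₁ F]
  [IsScalarTower R₀ R₀₁ F] [IsScalarTower R₁ R₀₁ F]
  [IsScalarTower K R₀ F] [IsScalarTower K R₁ F] [IsScalarTower K R₀₁ F]
  [IsDedekindDomain R₀] [IsDedekindDomain R₁] [IsDedekindDomain R₀₁]
  [IsFractionRing R₀ F] [IsFractionRing R₁ F] [IsFractionRing R₀₁ F]
  {x : R₀} {y : R₁} (h : IsFFCospan K F R₀₁ x y)

/-- The inclusion `O(D) → O(D + v)`. -/
def stepHom (D : Divisor K F) (v : Place K F) :
    H565.GlueHom (latticeDatum h D) (latticeDatum h (D + Finsupp.single v 1)) where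
  f₀ := lattStep (R := R₀) D v
  f₁ := lattStep (R := R₁) D v
  f₀₁ := lattStep (R := R₀₁) D v
  comm₀ := fun _ => rfl
  comm₁ := fun _ => rfl

variable [IsAlgClosed K] [IsCurveOver K F]

/-- `χ(O(D + v)) = χ(O(D)) + 1`. -/
theorem euler_step (hfin : ∀ D : Divisor K F, H565.FinCoh (latticeDatum h D).cech)
    (D : Divisor K F) (v : Place K F) :
    (latticeDatum h (D + Finsupp.single v 1)).euler = (latticeDatum h D).euler + 1 := by
  haveI := h.away₀
  have hinj₀ : Function.Injective (stepHom h D v).f₀ := lattStep_injective (R := R₀) D v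
  have hinj₁ : Function.Injective (stepHom h D v).f₁ := lattStep_injective (R := R₁) D v
  have key : ∀ (c₀ c₁ c₀₁ : ℕ),
      (FiniteDimensional K (stepHom h D v).coker₀ ∧
        Module.finrank K (stepHom h D v).coker₀ = c₀) →
      (FiniteDimensional K (stepHom h D v).coker₁ ∧
        Module.finrank K (stepHom h D v).coker₁ = c₁) →
      Module.finrank K (stepHom h D v).coker₀₁ = c₀₁ → (c₀ : ℤ) + c₁ - c₀₁ = 1 →
      (latticeDatum h (D + Finsupp.single v 1)).euler = (latticeDatum h D).euler + 1 := by
    intro c₀ c₁ c₀₁ h₀ h₁ h₀₁ hsum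
    haveI := h₀.1
    haveI := h₁.1
    have := ((stepHom h D v).euler_eq x hinj₀ hinj₁ (hfin D)).2
    rw [this, h₀.2, h₁.2, h₀₁]
    omega
  by_cases hv₀ : OnChart R₀ v
  · by_cases hv₁ : OnChart R₁ v
    · exact key 1 1 1 (finrank_coker_lattStep_of_onChart (R := R₀) D v hv₀)
        (finrank_coker_lattStep_of_onChart (R := R₁) D v hv₁)
        (finrank_coker_lattStep_of_onChart (R := R₀₁) D v (h.onChart₀₁ v hv₀ hv₁)).2 (by norm_num)
    · have hv₀₁ : ¬ OnChart R₀₁ v := fun hv => hv₁ (onChart_of_tower v hv)
      exact key 1 0 0 (finrank_coker_lattStep_of_onChart (R := R₀) D v hv₀)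
        (finrank_coker_lattStep_of_not_onChart (R := R₁) D v hv₁)
        (finrank_coker_lattStep_of_not_onChart (R := R₀₁) D v hv₀₁).2 (by norm_num)
  · have hv₁ : OnChart R₁ v := (h.cover v).resolve_left hv₀
    have hv₀₁ : ¬ OnChart R₀₁ v := fun hv => hv₀ (onChart_of_tower v hv)
    exact key 0 1 0 (finrank_coker_lattStep_of_not_onChart (R := R₀) D v hv₀)
      (finrank_coker_lattStep_of_onChart (R := R₁) D v hv₁)
      (finrank_coker_lattStep_of_not_onChart (R := R₀₁) D v hv₀₁).2 (by norm_num)

theorem euler_add_single (hfin : ∀ D : Divisor K F, H565.FinCoh (latticeDatum h D).cech)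
    (D : Divisor K F) (v : Place K F) (n : ℤ) :
    (latticeDatum h (D + Finsupp.single v n)).euler = (latticeDatum h D).euler + n := by
  induction n using Int.induction_on with
  | zero => simp
  | succ n ih =>
    have h1 := euler_step h hfin (D + Finsupp.single v (n : ℤ)) v
    rw [add_assoc, ← Finsupp.single_add] at h1
    rw [h1, ih]
    push_cast
    ring
  | pred n ih =>
    have h1 := euler_step h hfin (D + Finsupp.single v (-(n : ℤ) - 1)) v
    rw [add_assoc, ← Finsupp.single_add, sub_add_cancel] at h1
    rw [ih] at h1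
    omega

theorem euler_latticeDatum (hfin : ∀ D : Divisor K F, H565.FinCoh (latticeDatum h D).cech)
    (D : Divisor K F) :
    (latticeDatum h D).euler = (latticeDatum h 0).euler + Divisor.degree D := by
  induction D using Finsupp.induction with
  | zero => simp
  | single_add v n D _ _ ih =>
    rw [add_comm, euler_add_single h hfin, ih, map_add, Divisor.degree_single,
      IsCurveOver.deg_eq_one_of_isAlgClosed v]
    push_cast
    ring

/-- `O(0)` is the unit datum. -/
theorem isIso_unit_latticeDatum :
    (GlueDatum.unit K R₀ R₁ R₀₁).IsIso (latticeDatum h (0 : Divisor K F)) := by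
  have hmem : ∀ {R : Type u} [CommRing R] [IsDedekindDomain R] [Algebra R F]
      [IsFractionRing R F] [Algebra K R] [IsScalarTower K R F],
      LinearMap.range (Algebra.linearMap R F) = latt R (0 : Divisor K F) := by
    intro R _ _ _ _ _ _
    rw [latt_zero, Submodule.one_eq_range]
  refine ⟨{
    e₀ := (LinearEquiv.ofInjective (Algebra.linearMap R₀ F) (IsFractionRing.injective R₀ F)).trans
      (LinearEquiv.ofEq _ _ hmem)
    e₁ := (LinearEquiv.ofInjective (Algebra.linearMap R₁ F) (IsFractionRing.injective R₁ F)).trans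
      (LinearEquiv.ofEq _ _ hmem)
    e₀₁ := (LinearEquiv.ofInjective (Algebra.linearMap R₀₁ F)
      (IsFractionRing.injective R₀₁ F)).trans (LinearEquiv.ofEq _ _ hmem)
    comm₀ := fun s => Subtype.ext (IsScalarTower.algebraMap_apply R₀ R₀₁ F s).symm
    comm₁ := fun s => Subtype.ext (IsScalarTower.algebraMap_apply R₁ R₀₁ F s).symm }⟩

/-- **Degree.** `deg O(D) = deg D`. -/
theorem degree_latticeDatum (hfin : ∀ D : Divisor K F, H565.FinCoh (latticeDatum h D).cech)
    (D : Divisor K F) : (latticeDatum h D).degree = Divisor.degree D := by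
  rw [GlueDatum.degree, euler_latticeDatum h hfin D,
    H310.euler_eq_of_isIso (isIso_unit_latticeDatum h)]
  ring

end Cospan

end

end Fermat.Agent.S27.H747
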