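import Fermat.Agent.S27.H747.LattDatum
import Fermat.Agent.S25.H325.GDCMor

/-!
# S27 / PIC-CL (helper747): every gluing datum is `O(D)`

`exists_isIso_latticeDatum` : in the two-chart setting every gluing datum `G` over `K` is
isomorphic to `latticeDatum h D` for some divisor `D`  (embed `N₀₁` into `F`; the images of
`N₀`, `N₁` are fractional ideals of `R₀`, `R₁`; their multiplicities glue to a divisor).
-/

set_option autoImplicit false
set_option linter.unusedSectionVars false
set_option linter.unusedVariables false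
set_option linter.style.longLine false
set_option linter.style.haveILetI false

universe u

namespace Fermat.Agent.S27.H747

open AlgebraicCurve IsDedekindDomain Fermat.Agent.Lib.FF Fermat.Agent.S25
open scoped nonZeroDivisors TensorProduct

noncomputable section

variable {K : Type u} [Field K] {F : Type u} [Field F] [Algebra K F]

section Chart

variable {R : Type u} [CommRing R] [IsDedekindDomain R] [Algebra R F] [IsFractionRing R F]
  [Algebra K R] [IsScalarTower K R F]

/-- The center of a place on the chart, as a point of the height one spectrum. -/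
def centerPt (v : Place K F) (hv : OnChart R v) : HeightOneSpectrum R :=
  ⟨center v hv, inferInstance, center_ne_bot v hv⟩

theorem placeOf_centerPt (v : Place K F) (hv : OnChart R v) :
    placeOf K (centerPt v hv) = v :=
  placeOf_center v hv (center_ne_bot v hv)

theorem centerPt_placeOf (q : HeightOneSpectrum R) (hv : OnChart R (placeOf K q : Place K F)) :
    centerPt (placeOf K q : Place K F) hv = q :=
  HeightOneSpectrum.ext (center_placeOf (K := K) (F := F) q)

end Chart

section Loc

variable {R R' : Type u} [CommRing R] [CommRing R'] [IsDedekindDomain R] [IsDedekindDomain R']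
  [Algebra R R'] [Algebra R F] [Algebra R' F] [IsScalarTower R R' F]
  [IsFractionRing R F] [IsFractionRing R' F] [Algebra K R] [Algebra K R']
  [IsScalarTower K R F] [IsScalarTower K R' F]
  (x : R) [IsLocalization.Away x R']

/-- Multiplicities do not change under localisation. -/
theorem count_eq_of_localization {I : FractionalIdeal R⁰ F} {I' : FractionalIdeal R'⁰ F}
    (hI : I ≠ 0) (hI' : I' ≠ 0) (hle : ∀ g ∈ I, g ∈ I')
    (hloc : ∀ g ∈ I', ∃ n : ℕ, algebraMap R F x ^ n * g ∈ I)
    (q : HeightOneSpectrum R) (q' : HeightOneSpectrum R')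
    (hqq' : (placeOf K q : Place K F) = placeOf K q') :
    FractionalIdeal.count F q I = FractionalIdeal.count F q' I' := by
  have hx0 : algebraMap R F x ≠ 0 :=
    algebraMap_x_ne_zero F R' x (IsLocalization.Away.algebraMap_isUnit x)
  have hordx : (placeOf K q : Place K F).ord (algebraMap R F x) = 0 := by
    rw [hqq']
    exact ord_x_eq_zero_of_onChart x _ (onChart_placeOf q')
  apply le_antisymm
  · obtain ⟨g, hg, hg0, hgord⟩ := exists_ord_eq_count (K := K) hI' q'
    obtain ⟨n, hn⟩ := hloc g hg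
    have h1 := (mem_iff_count_le (K := K) hI (mul_ne_zero (pow_ne_zero n hx0) hg0)).mp hn q
    rw [Place.ord_mul _ (pow_ne_zero n hx0) hg0, ← zpow_natCast, Place.ord_zpow, hordx,
      mul_zero, zero_add, hqq', hgord] at h1
    exact h1
  · obtain ⟨g, hg, hg0, hgord⟩ := exists_ord_eq_count (K := K) hI q
    have h1 := (mem_iff_count_le (K := K) hI' hg0).mp (hle g hg) q'
    rw [← hqq', hgord] at h1
    exact h1

end Loc

section ChartFrame

variable {R R' : Type u} [CommRing R] [CommRing R'] [IsDedekindDomain R] [IsDedekindDomain R']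
  [Algebra R R'] [Algebra R F] [Algebra R' F] [IsScalarTower R R' F]
  [IsFractionRing R F] [IsFractionRing R' F] [Algebra K R] [Algebra K R']
  [IsScalarTower K R F] [IsScalarTower K R' F]
  (x : R) [IsLocalization.Away x R']
  {N N' : Type u} [AddCommGroup N] [Module R N] [AddCommGroup N'] [Module R' N'] [Module R N']
  [IsScalarTower R R' N'] [Module.Invertible R N]
  (r : N →ₗ[R] N') (hr : IsBaseChange R' r) (θ : N' →ₗ[R'] F) (hθ : Function.Injective θ)

/-- The frame restricted to a chart. -/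
def frameRes : N →ₗ[R] F := (θ.restrictScalars R).comp r

omit [IsDedekindDomain R] [IsDedekindDomain R'] [IsFractionRing R F] [IsFractionRing R' F]
  [Algebra K R] [Algebra K R'] [IsScalarTower K R F] [IsScalarTower K R' F] [Algebra K F]
  [Algebra R F] [Algebra R' F] [IsScalarTower R R' F] in
include hr in
theorem baseChange_injective (hinj : Function.Injective (algebraMap R R')) :
    Function.Injective r := by
  have h1 : Function.Injective ((Algebra.linearMap R R').rTensor N) :=
    Module.Flat.rTensor_preserves_injective_linearMap _ hinj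
  have h2 : ∀ n : N, r n =
      hr.equiv ((Algebra.linearMap R R').rTensor N ((TensorProduct.lid R N).symm n)) := by
    intro n
    simp [IsBaseChange.equiv_tmul]
  intro a b hab
  rw [h2, h2] at hab
  exact (TensorProduct.lid R N).symm.injective (h1 (hr.equiv.injective hab))

omit [IsDedekindDomain R] [IsDedekindDomain R'] [IsFractionRing R' F] [Algebra K R] [Algebra K R']
  [IsScalarTower K R F] [IsScalarTower K R' F] [Algebra K F] in
include hr hθ in
theorem frameRes_injective : Function.Injective (frameRes r θ) := by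
  have hinj : Function.Injective (algebraMap R R') := by
    have h1 : Function.Injective (algebraMap R F) := IsFractionRing.injective R F
    rw [IsScalarTower.algebraMap_eq R R' F] at h1
    exact Function.Injective.of_comp h1
  exact hθ.comp (baseChange_injective r hr hinj)

omit [IsDedekindDomain R'] [IsFractionRing R' F] [Algebra K R] [Algebra K R']
  [IsScalarTower K R F] [IsScalarTower K R' F] [Algebra K F] in
include hr hθ in
theorem exists_fi_range :
    ∃ I : FractionalIdeal R⁰ F, I ≠ 0 ∧ (I : Submodule R F) = LinearMap.range (frameRes r θ) := by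
  refine exists_fractionalIdeal_eq ?_ ?_
  · rw [LinearMap.range_eq_map]
    exact (Module.Finite.fg_top (R := R) (M := N)).map _
  · intro hbot
    have hnt : Nontrivial N := by
      by_contra hN
      rw [not_nontrivial_iff_subsingleton] at hN
      have h2 : ∀ n : N, (1 : R) • n = (0 : R) • n := fun n => Subsingleton.elim _ _
      exact one_ne_zero (FaithfulSMul.eq_of_smul_eq_smul (M := R) (α := N) h2)
    obtain ⟨n, hn⟩ := exists_ne (0 : N)
    have h1 : frameRes r θ n ∈ LinearMap.range (frameRes r θ) := ⟨n, rfl⟩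
    rw [hbot, Submodule.mem_bot] at h1
    exact hn (frameRes_injective r hr θ hθ (h1.trans (map_zero _).symm))

omit [IsDedekindDomain R] [IsDedekindDomain R'] [IsFractionRing R F] [IsFractionRing R' F]
  [Algebra K R] [Algebra K R'] [IsScalarTower K R F] [IsScalarTower K R' F] [Algebra K F]
  [Module.Invertible R N] in
include hr in
theorem exists_pow_mul_mem_range (g : F) (hg : g ∈ LinearMap.range θ) :
    ∃ n : ℕ, algebraMap R F x ^ n * g ∈ LinearMap.range (frameRes r θ) := by
  haveI : IsLocalizedModule (Submonoid.powers x) r :=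
    (isLocalizedModule_iff_isBaseChange (Submonoid.powers x) R' r).mpr hr
  obtain ⟨z, rfl⟩ := hg
  obtain ⟨⟨s, ⟨t, n, rfl⟩⟩, hs⟩ := IsLocalizedModule.surj (Submonoid.powers x) r z
  refine ⟨n, s, ?_⟩
  have hs' : (x ^ n) • z = r s := hs
  show θ (r s) = _
  rw [← hs', ← algebraMap_smul R' (x ^ n) z, map_smul, Algebra.smul_def,
    ← IsScalarTower.algebraMap_apply R R' F, map_pow]

end ChartFrame

section Cospan

variable {R₀ R₁ R₀₁ : Type u} [CommRing R₀] [CommRing R₁] [CommRing R₀₁]
  [Algebra K R₀] [Algebra K R₁] [Algebra K R₀₁] [Algebra R₀ R₀₁] [Algebra R₁ R₀₁]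
  [IsScalarTower K R₀ R₀₁] [IsScalarTower K R₁ R₀₁]
  [Algebra R₀ F] [Algebra R₁ F] [Algebra R₀₁ F]
  [IsScalarTower R₀ R₀₁ F] [IsScalarTower R₁ R₀₁ F]
  [IsScalarTower K R₀ F] [IsScalarTower K R₁ F] [IsScalarTower K R₀₁ F]
  [IsDedekindDomain R₀] [IsDedekindDomain R₁] [IsDedekindDomain R₀₁]
  [IsFractionRing R₀ F] [IsFractionRing R₁ F] [IsFractionRing R₀₁ F]
  {x : R₀} {y : R₁} (h : IsFFCospan K F R₀₁ x y)

omit [IsDedekindDomain R₀] [IsDedekindDomain R₁] [IsFractionRing R₀ F] [IsFractionRing R₁ F]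
  [IsScalarTower K R₀ F] [IsScalarTower K R₁ F] [IsScalarTower K R₀₁ F]
  [IsScalarTower R₀ R₀₁ F] [IsScalarTower R₁ R₀₁ F] [Algebra K F] [Algebra R₀ F] [Algebra R₁ F] in
/-- A frame: an embedding of `N₀₁` into `F`. -/
theorem exists_frame (G : GlueDatum K R₀ R₁ R₀₁) :
    ∃ θ : G.N₀₁ →ₗ[R₀₁] F, Function.Injective θ := by
  haveI := G.invertible₀
  haveI : Module.Invertible R₀₁ G.N₀₁ := Module.Invertible.congr G.isBaseChange₀.equiv
  obtain ⟨𝔞, ⟨φ⟩⟩ := Module.Invertible.exists_linearEquiv_ideal R₀₁ G.N₀₁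
  refine ⟨(Algebra.linearMap R₀₁ F).comp (𝔞.subtype.comp φ.toLinearMap), ?_⟩
  exact (IsFractionRing.injective R₀₁ F).comp
    ((Submodule.injective_subtype 𝔞).comp φ.injective)


/-- **Every gluing datum is `O(D)`.** -/
theorem exists_isIso_latticeDatum (G : GlueDatum K R₀ R₁ R₀₁) :
    ∃ D : Divisor K F, G.IsIso (latticeDatum h D) := by
  classical
  haveI := h.away₀
  haveI := h.away₁
  haveI := G.invertible₀
  haveI := G.invertible₁
  haveI : Module.Invertible R₀₁ G.N₀₁ := Module.Invertible.congr G.isBaseChange₀.equiv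
  obtain ⟨θ, hθ⟩ := exists_frame (F := F) G
  have hθ₀ := frameRes_injective G.r₀ G.isBaseChange₀ θ hθ
  have hθ₁ := frameRes_injective G.r₁ G.isBaseChange₁ θ hθ
  obtain ⟨I₀, hI₀, hI₀r⟩ := exists_fi_range G.r₀ G.isBaseChange₀ θ hθ
  obtain ⟨I₁, hI₁, hI₁r⟩ := exists_fi_range G.r₁ G.isBaseChange₁ θ hθ
  have hmem₀ : ∀ g : F, g ∈ I₀ ↔ g ∈ LinearMap.range (frameRes G.r₀ θ) := fun g => by
    rw [← hI₀r, FractionalIdeal.mem_coe]
  have hmem₁ : ∀ g : F, g ∈ I₁ ↔ g ∈ LinearMap.range (frameRes G.r₁ θ) := fun g => by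
    rw [← hI₁r, FractionalIdeal.mem_coe]
  obtain ⟨I₀₁, hI₀₁, hI₀₁r⟩ : ∃ I : FractionalIdeal R₀₁⁰ F, I ≠ 0 ∧
      (I : Submodule R₀₁ F) = LinearMap.range θ := by
    refine exists_fractionalIdeal_eq ?_ ?_
    · rw [LinearMap.range_eq_map]
      exact (Module.Finite.fg_top (R := R₀₁) (M := G.N₀₁)).map _
    · intro hbot
      apply hI₀
      apply FractionalIdeal.coeToSubmodule_injective
      show (I₀ : Submodule R₀ F) = ((0 : FractionalIdeal R₀⁰ F) : Submodule R₀ F)
      rw [hI₀r, FractionalIdeal.coe_zero, eq_bot_iff]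
      rintro _ ⟨n, rfl⟩
      have h1 : θ (G.r₀ n) ∈ LinearMap.range θ := ⟨_, rfl⟩
      rw [hbot, Submodule.mem_bot] at h1
      exact h1
  have hmem₀₁ : ∀ g : F, g ∈ I₀₁ ↔ g ∈ LinearMap.range θ := fun g => by
    rw [← hI₀₁r, FractionalIdeal.mem_coe]
  -- comparison of the multiplicities
  have hle₀ : ∀ g ∈ I₀, g ∈ I₀₁ := by
    intro g hg
    rw [hmem₀] at hg
    rw [hmem₀₁]
    obtain ⟨n, rfl⟩ := hg
    exact ⟨G.r₀ n, rfl⟩
  have hle₁ : ∀ g ∈ I₁, g ∈ I₀₁ := by
    intro g hg
    rw [hmem₁] at hg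
    rw [hmem₀₁]
    obtain ⟨n, rfl⟩ := hg
    exact ⟨G.r₁ n, rfl⟩
  have hloc₀ : ∀ g ∈ I₀₁, ∃ n : ℕ, algebraMap R₀ F x ^ n * g ∈ I₀ := by
    intro g hg
    rw [hmem₀₁] at hg
    obtain ⟨n, hn⟩ := exists_pow_mul_mem_range x G.r₀ G.isBaseChange₀ θ g hg
    exact ⟨n, (hmem₀ _).mpr hn⟩
  have hloc₁ : ∀ g ∈ I₀₁, ∃ n : ℕ, algebraMap R₁ F y ^ n * g ∈ I₁ := by
    intro g hg
    rw [hmem₀₁] at hg
    obtain ⟨n, hn⟩ := exists_pow_mul_mem_range y G.r₁ G.isBaseChange₁ θ g hg
    exact ⟨n, (hmem₁ _).mpr hn⟩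
  have hc₀ : ∀ (q : HeightOneSpectrum R₀) (q' : HeightOneSpectrum R₀₁),
      (placeOf K q : Place K F) = placeOf K q' →
      FractionalIdeal.count F q I₀ = FractionalIdeal.count F q' I₀₁ :=
    count_eq_of_localization (K := K) x hI₀ hI₀₁ hle₀ hloc₀
  have hc₁ : ∀ (q : HeightOneSpectrum R₁) (q' : HeightOneSpectrum R₀₁),
      (placeOf K q : Place K F) = placeOf K q' →
      FractionalIdeal.count F q I₁ = FractionalIdeal.count F q' I₀₁ :=
    count_eq_of_localization (K := K) y hI₁ hI₀₁ hle₁ hloc₁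
  -- the divisor
  let dfun : Place K F → ℤ := fun v =>
    if h₀ : OnChart R₀ v then -FractionalIdeal.count F (centerPt (R := R₀) v h₀) I₀
    else if h₁ : OnChart R₁ v then -FractionalIdeal.count F (centerPt (R := R₁) v h₁) I₁
    else 0
  have hfin : (Function.support dfun).Finite := by
    have hf₀ := Filter.eventually_cofinite.mp (FractionalIdeal.finite_factors I₀)
    have hf₁ := Filter.eventually_cofinite.mp (FractionalIdeal.finite_factors I₁)
    refine ((hf₀.image (placeOf K (F := F))).union (hf₁.image (placeOf K (F := F)))).subset ?_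
    intro v hv
    rw [Function.mem_support] at hv
    by_cases h₀ : OnChart R₀ v
    · left
      refine ⟨centerPt (R := R₀) v h₀, ?_, placeOf_centerPt v h₀⟩
      intro h0
      apply hv
      simp only [dfun, dif_pos h₀, h0, neg_zero]
    · by_cases h₁ : OnChart R₁ v
      · right
        refine ⟨centerPt (R := R₁) v h₁, ?_, placeOf_centerPt v h₁⟩
        intro h0
        apply hv
        simp only [dfun, dif_neg h₀, dif_pos h₁, h0, neg_zero]
      · exact absurd (by simp only [dfun, dif_neg h₀, dif_neg h₁]) hv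
  let D : Divisor K F := Finsupp.ofSupportFinite dfun hfin
  have hD : ∀ v, D v = dfun v := fun v => rfl
  have hcount₀ : ∀ q : HeightOneSpectrum R₀,
      FractionalIdeal.count F q I₀ = -D (placeOf K q) := by
    intro q
    rw [hD]
    simp only [dfun, dif_pos (onChart_placeOf (K := K) (F := F) q), neg_neg]
    rw [centerPt_placeOf]
  have hcount₀₁ : ∀ q : HeightOneSpectrum R₀₁,
      FractionalIdeal.count F q I₀₁ = -D (placeOf K q) := by
    intro q
    have h₀ : OnChart R₀ (placeOf K q : Place K F) :=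
      onChart_of_tower _ (onChart_placeOf (K := K) (F := F) q)
    rw [hD]
    simp only [dfun, dif_pos h₀, neg_neg]
    exact (hc₀ _ q (placeOf_centerPt _ h₀)).symm
  have hcount₁ : ∀ q : HeightOneSpectrum R₁,
      FractionalIdeal.count F q I₁ = -D (placeOf K q) := by
    intro q
    have h₁ : OnChart R₁ (placeOf K q : Place K F) := onChart_placeOf (K := K) (F := F) q
    by_cases h₀ : OnChart R₀ (placeOf K q : Place K F)
    · have h₀₁ := h.onChart₀₁ _ h₀ h₁
      rw [hc₁ q (centerPt _ h₀₁) (placeOf_centerPt _ h₀₁).symm, hcount₀₁, placeOf_centerPt]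
    · rw [hD]
      simp only [dfun, dif_neg h₀, dif_pos h₁, neg_neg]
      rw [centerPt_placeOf]
  have hr₀ : LinearMap.range (frameRes G.r₀ θ) = latt R₀ D := by
    rw [← hI₀r, latt, eq_fi_of_count hI₀ D hcount₀]
  have hr₁ : LinearMap.range (frameRes G.r₁ θ) = latt R₁ D := by
    rw [← hI₁r, latt, eq_fi_of_count hI₁ D hcount₁]
  have hr₀₁ : LinearMap.range θ = latt R₀₁ D := by
    rw [← hI₀₁r, latt, eq_fi_of_count hI₀₁ D hcount₀₁]
  refine ⟨D, ⟨{
    e₀ := (LinearEquiv.ofInjective (frameRes G.r₀ θ) hθ₀).trans (LinearEquiv.ofEq _ _ hr₀)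
    e₁ := (LinearEquiv.ofInjective (frameRes G.r₁ θ) hθ₁).trans (LinearEquiv.ofEq _ _ hr₁)
    e₀₁ := (LinearEquiv.ofInjective θ hθ).trans (LinearEquiv.ofEq _ _ hr₀₁)
    comm₀ := fun s => Subtype.ext rfl
    comm₁ := fun s => Subtype.ext rfl }⟩⟩

end Cospan

end

end Fermat.Agent.S27.H747
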