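import Fermat.Agent.S27.H747.LattDatum
import Fermat.Agent.S27.H323.Tensor

/-!
# S27 / PIC-CL (helper747): isomorphisms and tensor products of the data `O(D)`

* `isIso_latticeDatum_iff` : `O(D) ≅ O(D') ↔ D - D'` is principal;
* `isTensor_latticeDatum`  : `O(D + D')` is a tensor product of `O(D)` and `O(D')`.
-/

set_option autoImplicit false
set_option linter.unusedSectionVars false
set_option linter.unusedVariables false
set_option linter.style.longLine false

universe u

namespace Fermat.Agent.S27.H747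

open AlgebraicCurve IsDedekindDomain Fermat.Agent.Lib.FF Fermat.Agent.S25
open scoped nonZeroDivisors TensorProduct

noncomputable section

variable {K : Type u} [Field K] {F : Type u} [Field F] [Algebra K F]

/-! ### One chart -/

section Chart

variable {R : Type u} [CommRing R] [IsDedekindDomain R] [Algebra R F] [IsFractionRing R F]
  [Algebra K R] [IsScalarTower K R F]

theorem mul_mem_latt_of_ord {D P : Divisor K F} {f : F} (hf : f ≠ 0)
    (hP : ∀ v : Place K F, P v = v.ord f) {g : F} (hg : g ∈ latt R D) :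
    f⁻¹ * g ∈ latt R (D + P) := by
  rw [mem_latt_iff] at hg ⊢
  rcases hg with rfl | hg
  · exact Or.inl (mul_zero _)
  rcases eq_or_ne g 0 with rfl | hg0
  · exact Or.inl (mul_zero _)
  refine Or.inr fun v hv => ?_
  rw [v.ord_mul (inv_ne_zero hf) hg0, Place.ord_inv, Finsupp.add_apply, hP v]
  have := hg v hv
  omega

theorem mul_mem_latt_of_ord' {D P : Divisor K F} {f : F} (hf : f ≠ 0)
    (hP : ∀ v : Place K F, P v = v.ord f) {g : F} (hg : g ∈ latt R (D + P)) :
    f * g ∈ latt R D := by
  rw [mem_latt_iff] at hg ⊢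
  rcases hg with rfl | hg
  · exact Or.inl (mul_zero _)
  rcases eq_or_ne g 0 with rfl | hg0
  · exact Or.inl (mul_zero _)
  refine Or.inr fun v hv => ?_
  rw [v.ord_mul hf hg0]
  have := hg v hv
  rw [Finsupp.add_apply, hP v] at this
  omega

/-- Multiplication by `f⁻¹` as an isomorphism `latt R D ≃ latt R (D + div f)`. -/
def lattMulEquiv {D P : Divisor K F} {f : F} (hf : f ≠ 0)
    (hP : ∀ v : Place K F, P v = v.ord f) : latt R D ≃ₗ[R] latt R (D + P) where
  toFun g := ⟨f⁻¹ * g.1, mul_mem_latt_of_ord hf hP g.2⟩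
  invFun g := ⟨f * g.1, mul_mem_latt_of_ord' hf hP g.2⟩
  map_add' g g' := Subtype.ext (by simp [mul_add])
  map_smul' r g := Subtype.ext (by simp [Algebra.smul_def, mul_left_comm])
  left_inv g := Subtype.ext (by simp [hf])
  right_inv g := Subtype.ext (by simp [hf])

@[simp] theorem lattMulEquiv_coe {D P : Divisor K F} {f : F} (hf : f ≠ 0)
    (hP : ∀ v : Place K F, P v = v.ord f) (g : latt R D) :
    ((lattMulEquiv (R := R) hf hP g : latt R (D + P)) : F) = f⁻¹ * g := rfl

/-- The product of two elements of lattices. -/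
def lattMul (D D' : Divisor K F) : latt R D →ₗ[R] latt R D' →ₗ[R] latt R (D + D') :=
  LinearMap.mk₂ R (fun g g' => ⟨g.1 * g'.1, by
      rw [latt_add]; exact Submodule.mul_mem_mul g.2 g'.2⟩)
    (fun g₁ g₂ g' => Subtype.ext (by simp [add_mul]))
    (fun r g g' => Subtype.ext (by simp [Algebra.smul_def, mul_assoc]))
    (fun g g₁ g₂ => Subtype.ext (by simp [mul_add]))
    (fun r g g' => Subtype.ext (by simp [Algebra.smul_def, mul_left_comm]))

@[simp] theorem lattMul_coe (D D' : Divisor K F) (g : latt R D) (g' : latt R D') :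
    ((lattMul (R := R) D D' g g' : latt R (D + D')) : F) = g * g' := rfl

theorem bijective_lift_mul {L₁ L₂ L : Submodule R F} (h₁ : IsUnit L₁) (h₂ : IsUnit L₂)
    (h : L₁ * L₂ = L) (β : L₁ →ₗ[R] L₂ →ₗ[R] L) (hβ : ∀ g g', (β g g' : F) = (g : F) * g') :
    Function.Bijective (TensorProduct.lift β) := by
  obtain ⟨I, rfl⟩ := h₁
  obtain ⟨J, rfl⟩ := h₂
  subst h
  have : (TensorProduct.lift β : _ →ₗ[R] _) = (Submodule.tensorEquivMul I J).toLinearMap := by
    apply TensorProduct.ext'
    intro g g'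
    apply Subtype.ext
    rw [TensorProduct.lift.tmul, hβ]
    rfl
  rw [this]
  exact (Submodule.tensorEquivMul I J).bijective

theorem bijective_lift_lattMul (D D' : Divisor K F) :
    Function.Bijective (TensorProduct.lift (lattMul (R := R) D D')) :=
  bijective_lift_mul (isUnit_latt D) (isUnit_latt D') (latt_add D D').symm _
    (fun g g' => lattMul_coe D D' g g')

/-- A linear automorphism-like map between lattices is the multiplication by a scalar. -/
theorem exists_scalar_of_linearEquiv {D D' : Divisor K F} (e : latt R D ≃ₗ[R] latt R D') :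
    ∃ f : F, f ≠ 0 ∧ ∀ g : latt R D, ((e g : latt R D') : F) = f * g := by
  obtain ⟨g₀, hg₀, hg₀0⟩ := Submodule.exists_mem_ne_zero_of_ne_bot (latt_ne_bot (R := R) D)
  refine ⟨(e ⟨g₀, hg₀⟩ : F) / g₀, ?_, fun g => ?_⟩
  · refine div_ne_zero ?_ hg₀0
    intro h
    have : e ⟨g₀, hg₀⟩ = 0 := Subtype.ext h
    rw [LinearEquiv.map_eq_zero_iff] at this
    exact hg₀0 (congrArg Subtype.val this)
  · obtain ⟨a, b, hb, hab⟩ := IsFractionRing.div_surjective (A := R) ((g : F) / g₀)
    have hb0 : algebraMap R F b ≠ 0 :=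
      (map_ne_zero_iff _ (IsFractionRing.injective R F)).mpr (nonZeroDivisors.ne_zero hb)
    have h1 : b • g = a • (⟨g₀, hg₀⟩ : latt R D) := by
      apply Subtype.ext
      show b • (g : F) = a • g₀
      rw [Algebra.smul_def, Algebra.smul_def]
      field_simp at hab
      linear_combination -hab
    have h2 := congrArg (fun z => ((e z : latt R D') : F)) h1
    simp only [map_smul, Submodule.coe_smul, Algebra.smul_def] at h2
    field_simp
    have h3 : (g : F) * algebraMap R F b = algebraMap R F a * g₀ := by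
      field_simp at hab
      linear_combination -hab
    have : algebraMap R F b * ((e g : latt R D') : F) * g₀ =
        algebraMap R F b * ((e ⟨g₀, hg₀⟩ : latt R D') : F) * g := by
      rw [h2]
      linear_combination (-(e ⟨g₀, hg₀⟩ : latt R D') : F) * h3
    have := mul_left_cancel₀ hb0 (by rw [← mul_assoc, this, mul_assoc] :
      algebraMap R F b * (((e g : latt R D') : F) * g₀) =
        algebraMap R F b * (((e ⟨g₀, hg₀⟩ : latt R D') : F) * g))
    linear_combination this

end Chart

/-! ### The cospan -/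

section Cospan

variable {R₀ R₁ R₀₁ : Type u} [CommRing R₀] [CommRing R₁] [CommRing R₀₁]
  [Algebra K R₀] [Algebra K R₁] [Algebra K R₀₁] [Algebra R₀ R₀₁] [Algebra R₁ R₀₁]
  [IsScalarTower K R₀ R₀₁] [IsScalarTower K R₁ R₀₁]
  [Algebra R₀ F] [Algebra R₁ F] [Algebra R₀₁ F]
  [IsScalarTower R₀ R₀₁ F] [IsScalarTower R₁ R₀₁ F]
  [IsScalarTower K R₀ F] [IsScalarTower K R₁ F] [IsScalarTower K R₀₁ F]
  [IsDedekindDomain R₀] [IsDedekindDomain R₁] [IsDedekindDomain R₀₁]
  [IsFractionRing R₀ F] [IsFractionRing R₁ F] [IsFractionRing R₀₁ F]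
  {x : R₀} {y : R₁} (h : IsFFCospan K F R₀₁ x y)

/-- `O(D) ≅ O(D + div f)`. -/
theorem isIso_latticeDatum_add (D : Divisor K F) {P : Divisor K F} {f : F} (hf : f ≠ 0)
    (hP : ∀ v : Place K F, P v = v.ord f) :
    (latticeDatum h D).IsIso (latticeDatum h (D + P)) :=
  ⟨{ e₀ := lattMulEquiv (R := R₀) hf hP
     e₁ := lattMulEquiv (R := R₁) hf hP
     e₀₁ := lattMulEquiv (R := R₀₁) hf hP
     comm₀ := fun _ => rfl
     comm₁ := fun _ => rfl }⟩

theorem isIso_latticeDatum_of_principal {D D' : Divisor K F}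
    (hDD' : D - D' ∈ Divisor.principal (K := K) (F := F)) :
    (latticeDatum h D).IsIso (latticeDatum h D') := by
  obtain ⟨f, hf, hP⟩ := hDD'
  have h1 := isIso_latticeDatum_add h D' hf hP
  rw [add_sub_cancel] at h1
  exact H325.isIso_symm h1

theorem sub_mem_principal_of_isIso {D D' : Divisor K F}
    (hiso : (latticeDatum h D).IsIso (latticeDatum h D')) :
    D - D' ∈ Divisor.principal (K := K) (F := F) := by
  obtain ⟨e⟩ := hiso
  obtain ⟨f, hf, hmul⟩ := exists_scalar_of_linearEquiv (R := R₀₁) (D := D) (D' := D')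
    (show latt R₀₁ D ≃ₗ[R₀₁] latt R₀₁ D' from e.e₀₁)
  have hmul₀ : ∀ g : latt R₀ D, ((show latt R₀ D' from e.e₀ g : latt R₀ D') : F) = f * g := by
    intro g
    have h1 := e.comm₀ g
    have h2 := congrArg (fun z : latt R₀₁ D' => (z : F)) h1
    have h3 := hmul (lattIncl D g)
    exact h2.symm.trans h3
  have hmul₁ : ∀ g : latt R₁ D, ((show latt R₁ D' from e.e₁ g : latt R₁ D') : F) = f * g := by
    intro g
    have h1 := e.comm₁ g
    have h2 := congrArg (fun z : latt R₀₁ D' => (z : F)) h1
    have h3 := hmul (lattIncl D g)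
    exact h2.symm.trans h3
  refine ⟨f, hf, fun v => ?_⟩
  have key : ∀ {R : Type u} [CommRing R] [IsDedekindDomain R] [Algebra R F] [IsFractionRing R F]
      [Algebra K R] [IsScalarTower K R F] (ε : latt R D ≃ₗ[R] latt R D')
      (hε : ∀ g : latt R D, ((ε g : latt R D') : F) = f * g), OnChart R v →
      (D - D') v = v.ord f := by
    intro R _ _ _ _ _ _ ε hε hv
    rw [Finsupp.sub_apply]
    apply le_antisymm
    · obtain ⟨g, hg, hg0, hgord⟩ := exists_mem_latt_ord_eq (R := R) D v hv
      have h1 : f * g ∈ latt R D' := by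
        rw [← hε ⟨g, hg⟩]; exact (ε ⟨g, hg⟩).2
      rw [mem_latt_iff] at h1
      rcases h1 with h1 | h1
      · exact absurd h1 (mul_ne_zero hf hg0)
      have := h1 v hv
      rw [v.ord_mul hf hg0, hgord] at this
      omega
    · obtain ⟨g', hg', hg'0, hg'ord⟩ := exists_mem_latt_ord_eq (R := R) D' v hv
      have h1 := hε (ε.symm ⟨g', hg'⟩)
      rw [LinearEquiv.apply_symm_apply] at h1
      have h1' : g' = f * ((ε.symm ⟨g', hg'⟩ : latt R D) : F) := h1
      have hg0 : ((ε.symm ⟨g', hg'⟩ : latt R D) : F) ≠ 0 := by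
        intro h0
        rw [h0, mul_zero] at h1'
        exact hg'0 h1'
      have h2 := (ε.symm ⟨g', hg'⟩ : latt R D).2
      rw [mem_latt_iff] at h2
      rcases h2 with h2 | h2
      · exact absurd h2 hg0
      have := h2 v hv
      have h3 : v.ord g' = v.ord f + v.ord ((ε.symm ⟨g', hg'⟩ : latt R D) : F) := by
        conv_lhs => rw [h1']
        exact v.ord_mul hf hg0
      omega
  rcases h.cover v with hv | hv
  · exact key (show latt R₀ D ≃ₗ[R₀] latt R₀ D' from e.e₀) hmul₀ hv
  · exact key (show latt R₁ D ≃ₗ[R₁] latt R₁ D' from e.e₁) hmul₁ hv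

/-- **Iso ↔ principal.** -/
theorem isIso_latticeDatum_iff (D D' : Divisor K F) :
    (latticeDatum h D).IsIso (latticeDatum h D') ↔
      D - D' ∈ Divisor.principal (K := K) (F := F) :=
  ⟨sub_mem_principal_of_isIso h, isIso_latticeDatum_of_principal h⟩

/-- **Tensor.** `O(D + D')` is a tensor product of `O(D)` and `O(D')`. -/
theorem isTensor_latticeDatum (D D' : Divisor K F) :
    IsTensor (latticeDatum h D) (latticeDatum h D') (latticeDatum h (D + D')) :=
  ⟨{ β₀ := lattMul (R := R₀) D D'
     β₁ := lattMul (R := R₁) D D'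
     β₀₁ := lattMul (R := R₀₁) D D'
     comm₀ := fun _ _ => rfl
     comm₁ := fun _ _ => rfl
     bijective₀ := bijective_lift_lattMul (R := R₀) D D'
     bijective₁ := bijective_lift_lattMul (R := R₁) D D'
     bijective₀₁ := bijective_lift_lattMul (R := R₀₁) D D' }⟩

end Cospan

end

end Fermat.Agent.S27.H747
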