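import Fermat.Agent.S27.H747.Lattice

/-!
# S27 / PIC-CL (helper747): lattices and localisation `R → R' = R[1/x]`

`R ⊆ R' = R[1/x] ⊆ F` Dedekind domains with fraction field `F`.  The inclusion
`latt R D → latt R' D` is a localisation (hence a base change) of modules.
-/

set_option autoImplicit false
set_option linter.unusedSectionVars false
set_option linter.unusedVariables false
set_option linter.style.longLine false

namespace Fermat.Agent.S27.H747

open AlgebraicCurve IsDedekindDomain Fermat.Agent.Lib.FF
open scoped nonZeroDivisors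

noncomputable section

variable {K F : Type*} [Field K] [Field F] [Algebra K F]

section Loc

variable {R R' : Type*} [CommRing R] [CommRing R'] [IsDedekindDomain R] [IsDedekindDomain R']
  [Algebra R R'] [Algebra R F] [Algebra R' F] [IsScalarTower R R' F]
  [IsFractionRing R F] [IsFractionRing R' F] [Algebra K R] [Algebra K R']
  [IsScalarTower K R F] [IsScalarTower K R' F]

theorem onChart_of_tower (v : Place K F) (hv : OnChart R' v) : OnChart R v := fun r => by
  rw [IsScalarTower.algebraMap_apply R R' F]
  exact hv _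

theorem latt_le_latt (D : Divisor K F) {f : F} (hf : f ∈ latt R D) : f ∈ latt R' D := by
  rw [mem_latt_iff] at hf ⊢
  rcases hf with hf | hf
  · exact Or.inl hf
  · exact Or.inr fun v hv => hf v (onChart_of_tower v hv)

/-- The inclusion of lattices `latt R D → latt R' D`. -/
def lattIncl (D : Divisor K F) : latt R D →ₗ[R] latt R' D where
  toFun f := ⟨f.1, latt_le_latt D f.2⟩
  map_add' _ _ := rfl
  map_smul' r f := by
    apply Subtype.ext
    show r • (f : F) = r • (⟨f.1, latt_le_latt D f.2⟩ : latt R' D).1
    rfl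

@[simp] theorem lattIncl_coe (D : Divisor K F) (f : latt R D) :
    ((lattIncl (R' := R') D f : latt R' D) : F) = f := rfl

theorem lattIncl_injective (D : Divisor K F) :
    Function.Injective (lattIncl (R := R) (R' := R') D) := fun f g h =>
  Subtype.ext (congrArg (fun z : latt R' D => (z : F)) h)

theorem ord_nonneg_of_onChart (v : Place K F) (hv : OnChart R v) (r : R) :
    0 ≤ v.ord (algebraMap R F r) :=
  Fermat.Agent.S24.FF.ord_nonneg_of_mem v (hv r)


omit [IsDedekindDomain R] [IsFractionRing R F] [Algebra K R] [Algebra K R']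
  [IsScalarTower K R F] [IsScalarTower K R' F] in
variable (F R') in
theorem algebraMap_x_ne_zero (x : R) (h1 : IsUnit (algebraMap R R' x)) : algebraMap R F x ≠ 0 := by
  rw [IsScalarTower.algebraMap_apply R R' F]
  exact (map_ne_zero_iff _ (IsFractionRing.injective R' F)).mpr h1.ne_zero

variable (x : R) [IsLocalization.Away x R']

theorem ord_x_eq_zero_of_onChart (v : Place K F) (hv : OnChart R' v) :
    v.ord (algebraMap R F x) = 0 := by
  have h1 : IsUnit (algebraMap R R' x) := IsLocalization.Away.algebraMap_isUnit x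
  obtain ⟨u, hu⟩ := h1
  have hx : algebraMap R F x = algebraMap R' F (u : R') := by
    rw [IsScalarTower.algebraMap_apply R R' F, hu]
  have h2 : algebraMap R' F (u : R') * algebraMap R' F ((u⁻¹ : R'ˣ) : R') = 1 := by
    rw [← map_mul, Units.mul_inv, map_one]
  have hu0 : algebraMap R' F (u : R') ≠ 0 := left_ne_zero_of_mul_eq_one h2
  have hu0' : algebraMap R' F ((u⁻¹ : R'ˣ) : R') ≠ 0 := right_ne_zero_of_mul_eq_one h2
  have h3 := v.ord_mul hu0 hu0'
  rw [h2, Place.ord_one] at h3
  have h4 := ord_nonneg_of_onChart v hv (u : R')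
  have h5 := ord_nonneg_of_onChart v hv ((u⁻¹ : R'ˣ) : R')
  rw [hx]
  omega

theorem onChart_of_ord_x_eq_zero (v : Place K F) (hv : OnChart R v)
    (h0 : v.ord (algebraMap R F x) = 0) : OnChart R' v := by
  intro r'
  obtain ⟨n, a, ha⟩ := IsLocalization.Away.surj x r'
  have hx0 : algebraMap R F x ≠ 0 :=
    algebraMap_x_ne_zero F R' x (IsLocalization.Away.algebraMap_isUnit x)
  have h1 : algebraMap R' F r' = algebraMap R F a * (algebraMap R F x ^ n)⁻¹ := by
    have := congrArg (algebraMap R' F) ha
    rw [map_mul, map_pow, ← IsScalarTower.algebraMap_apply R R' F,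
      ← IsScalarTower.algebraMap_apply R R' F] at this
    rw [← this, mul_assoc, mul_inv_cancel₀ (pow_ne_zero n hx0), mul_one]
  rw [h1]
  refine mul_mem (hv a) ?_
  apply Fermat.Agent.S24.FF.mem_of_ord_nonneg
  rw [Place.ord_inv, ← zpow_natCast, Place.ord_zpow, h0]
  simp

theorem onChart_iff_ord_x (v : Place K F) (hv : OnChart R v) :
    OnChart R' v ↔ v.ord (algebraMap R F x) = 0 :=
  ⟨ord_x_eq_zero_of_onChart x v, onChart_of_ord_x_eq_zero x v hv⟩


/-- Multiplying by a high power of `x` moves `latt R' D` into `latt R D`. -/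
theorem exists_pow_mul_mem_latt (D : Divisor K F) {g : F} (hg : g ∈ latt R' D) :
    ∃ n : ℕ, algebraMap R F x ^ n * g ∈ latt R D := by
  classical
  rcases eq_or_ne g 0 with rfl | hg0
  · exact ⟨0, by rw [mul_zero]; exact zero_mem _⟩
  have hx0 : algebraMap R F x ≠ 0 :=
    algebraMap_x_ne_zero F R' x (IsLocalization.Away.algebraMap_isUnit x)
  have hxR : x ≠ 0 := by
    rintro rfl
    exact hx0 (map_zero _)
  have hfin : {q : HeightOneSpectrum R | q.asIdeal ∣ Ideal.span {x}}.Finite :=
    Ideal.finite_factors (by rwa [Ne, Ideal.zero_eq_bot, Ideal.span_singleton_eq_bot])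
  let n : ℕ := ∑ q ∈ hfin.toFinset,
    (-D (placeOf K q) - (placeOf K q : Place K F).ord g).toNat
  refine ⟨n, ?_⟩
  rw [mem_latt_iff]
  refine Or.inr fun v hv => ?_
  obtain ⟨q, rfl⟩ := exists_placeOf_eq v hv
  have hord : (placeOf K q : Place K F).ord (algebraMap R F x ^ n * g) =
      n * (placeOf K q : Place K F).ord (algebraMap R F x) + (placeOf K q : Place K F).ord g := by
    rw [Place.ord_mul _ (pow_ne_zero n hx0) hg0, ← zpow_natCast, Place.ord_zpow]
  rw [hord]
  have hx_nonneg := ord_nonneg_of_onChart (placeOf K q : Place K F) hv x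
  rcases eq_or_lt_of_le hx_nonneg with h0 | hpos
  · have hv' : OnChart R' (placeOf K q : Place K F) :=
      onChart_of_ord_x_eq_zero x _ hv h0.symm
    rw [mem_latt_iff] at hg
    rcases hg with hg | hg
    · exact absurd hg hg0
    have := hg _ hv'
    rw [← h0]
    simpa using this
  · have hmem : q ∈ hfin.toFinset := by
      rw [Set.Finite.mem_toFinset, Set.mem_ofPred_eq, Ideal.dvd_span_singleton]
      have := (mem_center_iff_ord_pos (placeOf K q : Place K F) (algebraMap_mem_placeOf q) hxR).mpr
        hpos
      rwa [center_placeOf] at this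
    have hle : (-D (placeOf K q) - (placeOf K q : Place K F).ord g).toNat ≤ n :=
      Finset.single_le_sum (f := fun q : HeightOneSpectrum R =>
        (-D (placeOf K q) - (placeOf K q : Place K F).ord g).toNat)
        (fun _ _ => Nat.zero_le _) hmem
    have h1 : -D (placeOf K q) - (placeOf K q : Place K F).ord g ≤ (n : ℤ) := by
      have := Int.self_le_toNat (-D (placeOf K q) - (placeOf K q : Place K F).ord g)
      have h2 : ((-D (placeOf K q) - (placeOf K q : Place K F).ord g).toNat : ℤ) ≤ n := by
        exact_mod_cast hle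
      omega
    have h2 : (n : ℤ) ≤ n * (placeOf K q : Place K F).ord (algebraMap R F x) := by
      nlinarith
    omega


theorem isLocalizedModule_lattIncl (D : Divisor K F) :
    IsLocalizedModule (Submonoid.powers x) (lattIncl (R := R) (R' := R') D) where
  map_units := by
    rintro ⟨s, n, rfl⟩
    rw [Module.End.isUnit_iff]
    have hx0 : algebraMap R F x ≠ 0 :=
      algebraMap_x_ne_zero F R' x (IsLocalization.Away.algebraMap_isUnit x)
    have hs0 : algebraMap R F (x ^ n) ≠ 0 := by
      rw [map_pow]; exact pow_ne_zero n hx0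
    constructor
    · intro g g' h
      have h1 : (x ^ n) • (g : F) = (x ^ n) • (g' : F) :=
        congrArg (fun z : latt R' D => (z : F)) h
      rw [Algebra.smul_def, Algebra.smul_def] at h1
      exact Subtype.ext (mul_left_cancel₀ hs0 h1)
    · intro g
      have hu : IsUnit (algebraMap R R' (x ^ n)) := by
        rw [map_pow]; exact (IsLocalization.Away.algebraMap_isUnit x).pow n
      obtain ⟨u, hu⟩ := hu
      refine ⟨((u⁻¹ : R'ˣ) : R') • g, ?_⟩
      apply Subtype.ext
      show (x ^ n) • ((((u⁻¹ : R'ˣ) : R') • g : latt R' D) : F) = (g : F)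
      rw [Submodule.coe_smul, ← algebraMap_smul R' (x ^ n) ((((u⁻¹ : R'ˣ) : R')) • (g : F)),
        smul_smul, ← hu, Units.mul_inv, one_smul]
  surj := by
    intro g
    obtain ⟨n, hn⟩ := exists_pow_mul_mem_latt (R := R) (R' := R') x D g.2
    refine ⟨(⟨_, hn⟩, ⟨x ^ n, n, rfl⟩), ?_⟩
    apply Subtype.ext
    show (x ^ n) • (g : F) = algebraMap R F x ^ n * (g : F)
    rw [Algebra.smul_def, map_pow]
  exists_of_eq := by
    intro g g' h
    exact ⟨1, by rw [lattIncl_injective D h]⟩

include x in
theorem isBaseChange_lattIncl (D : Divisor K F) :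
    IsBaseChange R' (lattIncl (R := R) (R' := R') D) :=
  haveI := isLocalizedModule_lattIncl (R := R) (R' := R') x D
  IsLocalizedModule.isBaseChange (Submonoid.powers x) R' (lattIncl (R := R) (R' := R') D)

end Loc

end

end Fermat.Agent.S27.H747
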