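import Mathlib
import Fermat.Agent.Lib.FF.PrimePlace

/-!
# S27 / PIC-CL (helper747): lattices over one Dedekind chart

`R` a Dedekind domain with fraction field `F`, `K ⊆ R`.  Places of `F/K` *on the chart* `Spec R`
(`R ⊆ O_v`) are the places `placeOf K q`, `q` a nonzero prime.  A nonzero fractional ideal `I` is
`{f | f = 0 ∨ ∀ q, count_q I ≤ ord_q f}`, and for a divisor `D` the lattice
`latt R D = {f | f = 0 ∨ ∀ v on the chart, -D v ≤ ord_v f}` is an invertible `R`-submodule of `F`.
-/

set_option autoImplicit false
set_option linter.unusedSectionVars false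
set_option linter.unusedVariables false
set_option linter.style.longLine false

namespace Fermat.Agent.S27.H747

open AlgebraicCurve IsDedekindDomain Fermat.Agent.Lib.FF
open scoped nonZeroDivisors

noncomputable section

variable {K F : Type*} [Field K] [Field F] [Algebra K F]

section Chart

variable (R : Type*) [CommRing R] [IsDedekindDomain R] [Algebra R F] [IsFractionRing R F]
  [Algebra K R] [IsScalarTower K R F]

/-- The place `v` lies on the chart `Spec R`: `R ⊆ O_v`. -/
abbrev OnChart (v : Place K F) : Prop := ∀ r : R, algebraMap R F r ∈ v.toValuationSubring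

variable {R}

theorem onChart_placeOf (q : HeightOneSpectrum R) : OnChart R (placeOf K q : Place K F) :=
  fun r => algebraMap_mem_placeOf q r

theorem center_ne_bot (v : Place K F) (hv : OnChart R v) : center v hv ≠ ⊥ := by
  intro hbot
  apply v.ne_top'
  refine SetLike.ext fun f => ⟨fun _ => ValuationSubring.mem_top f, fun _ => ?_⟩
  obtain ⟨a, b, hb, rfl⟩ := IsFractionRing.div_surjective (A := R) f
  have hb0 : b ≠ 0 := nonZeroDivisors.ne_zero hb
  have hbc : b ∉ center v hv := by
    rw [hbot]; simpa using hb0
  rw [mem_center_iff] at hbc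
  have hbF : algebraMap R F b ≠ 0 :=
    (map_ne_zero_iff _ (IsFractionRing.injective R F)).mpr hb0
  have hinv : (algebraMap R F b)⁻¹ ∈ v.toValuationSubring := by
    by_contra hcon
    exact hbc ((ValuationSubring.mem_nonunits_iff_or _).mpr (Or.inr hcon))
  rw [div_eq_mul_inv]
  exact mul_mem (hv a) hinv

/-- Every place on the chart is the place of a nonzero prime. -/
theorem exists_placeOf_eq (v : Place K F) (hv : OnChart R v) :
    ∃ q : HeightOneSpectrum R, placeOf K q = v :=
  ⟨⟨center v hv, inferInstance, center_ne_bot v hv⟩, placeOf_center v hv (center_ne_bot v hv)⟩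

theorem onChart_iff (v : Place K F) :
    OnChart R v ↔ ∃ q : HeightOneSpectrum R, placeOf K q = v :=
  ⟨exists_placeOf_eq v, fun ⟨q, hq⟩ => hq ▸ onChart_placeOf q⟩

/-- `ord` at the place of `q` of an element of `R`. -/
theorem ord_placeOf_algebraMap (q : HeightOneSpectrum R) {r : R} (hr : r ≠ 0) :
    (placeOf K q : Place K F).ord (algebraMap R F r) =
      ((Associates.mk q.asIdeal).count (Associates.mk (Ideal.span {r} : Ideal R)).factors : ℤ) := by
  rw [ord_placeOf, q.valuation_of_algebraMap, q.intValuation_if_neg hr, WithZero.log_exp]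
  simp

/-- **Bridge**: the multiplicity of `q` in the principal fractional ideal `(f)` is `ord_q f`. -/
theorem count_spanSingleton (q : HeightOneSpectrum R) {f : F} (hf : f ≠ 0) :
    FractionalIdeal.count F q (FractionalIdeal.spanSingleton R⁰ f) =
      (placeOf K q : Place K F).ord f := by
  obtain ⟨a, b, hb, rfl⟩ := IsFractionRing.div_surjective (A := R) f
  have hb0 : b ≠ 0 := nonZeroDivisors.ne_zero hb
  have hbF : algebraMap R F b ≠ 0 :=
    (map_ne_zero_iff _ (IsFractionRing.injective R F)).mpr hb0
  have haF : algebraMap R F a ≠ 0 := by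
    rintro h; apply hf; rw [h, zero_div]
  have ha0 : a ≠ 0 := by
    rintro rfl; exact haF (map_zero _)
  have hJ : (Ideal.span {a} : Ideal R) ≠ 0 := by
    rwa [Ne, Ideal.zero_eq_bot, Ideal.span_singleton_eq_bot]
  have hI : FractionalIdeal.spanSingleton R⁰ (algebraMap R F a / algebraMap R F b) ≠ 0 := by
    rwa [Ne, FractionalIdeal.spanSingleton_eq_zero_iff]
  have key : FractionalIdeal.spanSingleton R⁰ (algebraMap R F a / algebraMap R F b) =
      FractionalIdeal.spanSingleton R⁰ ((algebraMap R F) b)⁻¹ * ↑(Ideal.span {a} : Ideal R) := by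
    rw [FractionalIdeal.coeIdeal_span_singleton, FractionalIdeal.spanSingleton_mul_spanSingleton,
      div_eq_inv_mul]
  rw [FractionalIdeal.count_well_defined F q hI key, div_eq_mul_inv,
    (placeOf K q : Place K F).ord_mul haF (inv_ne_zero hbF), Place.ord_inv,
    ord_placeOf_algebraMap q ha0, ord_placeOf_algebraMap q hb0]
  ring


/-! ### Membership in a fractional ideal through the orders -/

theorem le_one_of_count_nonneg {J : FractionalIdeal R⁰ F} (hJ : J ≠ 0)
    (h : ∀ q : HeightOneSpectrum R, 0 ≤ FractionalIdeal.count F q J) : J ≤ 1 := by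
  rw [FractionalIdeal.le_one_iff_exists_coeIdeal]
  refine ⟨∏ᶠ q : HeightOneSpectrum R, q.asIdeal ^ (FractionalIdeal.count F q J).toNat, ?_⟩
  have hfin : (Function.mulSupport fun q : HeightOneSpectrum R =>
      q.asIdeal ^ (FractionalIdeal.count F q J).toNat).Finite := by
    refine (FractionalIdeal.finite_factors J).subset ?_
    intro q hq
    simp only [Function.mem_mulSupport] at hq
    simp only [Set.mem_compl_iff, Set.mem_ofPred_eq]
    intro h0
    apply hq
    rw [h0]
    simp
  rw [FractionalIdeal.coeIdeal_finprod R⁰ F (le_refl _)]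
  conv_rhs => rw [← FractionalIdeal.finprod_heightOneSpectrum_factorization' F hJ]
  refine finprod_congr fun q => ?_
  rw [FractionalIdeal.coeIdeal_pow, ← zpow_natCast, Int.toNat_of_nonneg (h q)]

/-- **KL**: a nonzero `f` lies in the nonzero fractional ideal `I` iff `count_q I ≤ ord_q f` for
all nonzero primes `q`. -/
theorem mem_iff_count_le {I : FractionalIdeal R⁰ F} (hI : I ≠ 0) {f : F} (hf : f ≠ 0) :
    f ∈ I ↔ ∀ q : HeightOneSpectrum R,
      FractionalIdeal.count F q I ≤ (placeOf K q : Place K F).ord f := by
  have hsp : FractionalIdeal.spanSingleton R⁰ f ≠ 0 := by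
    rwa [Ne, FractionalIdeal.spanSingleton_eq_zero_iff]
  constructor
  · intro hfI q
    have hle : FractionalIdeal.spanSingleton R⁰ f ≤ I := by
      rwa [FractionalIdeal.spanSingleton_le_iff_mem]
    have := FractionalIdeal.count_mono F q hsp hle
    rwa [count_spanSingleton (K := K) q hf] at this
  · intro h
    have hJ : FractionalIdeal.spanSingleton R⁰ f * I⁻¹ ≠ 0 := mul_ne_zero hsp (inv_ne_zero hI)
    have hle : FractionalIdeal.spanSingleton R⁰ f * I⁻¹ ≤ 1 := by
      refine le_one_of_count_nonneg hJ fun q => ?_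
      rw [FractionalIdeal.count_mul F q hsp (inv_ne_zero hI), FractionalIdeal.count_inv,
        count_spanSingleton (K := K) q hf]
      have := h q
      omega
    have h2 : FractionalIdeal.spanSingleton R⁰ f ≤ I := by
      calc FractionalIdeal.spanSingleton R⁰ f
          = FractionalIdeal.spanSingleton R⁰ f * I⁻¹ * I := by
            rw [mul_assoc, inv_mul_cancel₀ hI, mul_one]
        _ ≤ 1 * I := mul_le_mul_left hle I
        _ = I := one_mul I
    rwa [FractionalIdeal.spanSingleton_le_iff_mem] at h2

/-- The minimum of `ord_q` on `I` is attained (and is `count_q I`). -/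
theorem exists_ord_eq_count {I : FractionalIdeal R⁰ F} (hI : I ≠ 0) (q : HeightOneSpectrum R) :
    ∃ f : F, f ∈ I ∧ f ≠ 0 ∧ (placeOf K q : Place K F).ord f = FractionalIdeal.count F q I := by
  classical
  by_contra hcon
  push Not at hcon
  have hq0 : (q.asIdeal : FractionalIdeal R⁰ F) ≠ 0 :=
    FractionalIdeal.coeIdeal_ne_zero.mpr q.ne_bot
  have hIq : I * (q.asIdeal : FractionalIdeal R⁰ F) ≠ 0 := mul_ne_zero hI hq0
  have hle : I ≤ I * (q.asIdeal : FractionalIdeal R⁰ F) := by
    intro f hfI
    rcases eq_or_ne f 0 with rfl | hf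
    · exact FractionalIdeal.zero_mem _
    have hfI' : f ∈ I := hfI
    refine (mem_iff_count_le (K := K) hIq hf).mpr fun q' => ?_
    rw [FractionalIdeal.count_mul F q' hI hq0, FractionalIdeal.count_maximal]
    have h1 := (mem_iff_count_le (K := K) hI hf).mp hfI' q'
    split_ifs with hqq
    · subst hqq
      have h2 := hcon f hfI' hf
      omega
    · omega
  have := FractionalIdeal.count_mono F q hI hle
  rw [FractionalIdeal.count_mul F q hI hq0, FractionalIdeal.count_self] at this
  omega

/-! ### The fractional ideal of a divisor -/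

variable (R) in
/-- The fractional ideal `∏ q ^ (-D q)` of `R` attached to a divisor. -/
def fi (D : Divisor K F) : FractionalIdeal R⁰ F :=
  ∏ᶠ q : HeightOneSpectrum R, (q.asIdeal : FractionalIdeal R⁰ F) ^ (-D (placeOf K q))

theorem finite_exps (D : Divisor K F) :
    ∀ᶠ q : HeightOneSpectrum R in Filter.cofinite, -D (placeOf K q) = 0 := by
  rw [Filter.eventually_cofinite]
  have : {q : HeightOneSpectrum R | ¬ -D (placeOf K q) = 0} ⊆
      (placeOf K (F := F)) ⁻¹' (D.support : Set (Place K F)) := by
    intro q hq
    simp only [Set.mem_ofPred_eq, neg_eq_zero] at hq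
    simpa using hq
  exact (D.support.finite_toSet.preimage (placeOf_injective.injOn)).subset this

theorem count_fi (D : Divisor K F) (q : HeightOneSpectrum R) :
    FractionalIdeal.count F q (fi R D) = -D (placeOf K q) :=
  FractionalIdeal.count_finprod F q _ (finite_exps D)

theorem mulSupport_fi_finite (D : Divisor K F) :
    (Function.mulSupport fun q : HeightOneSpectrum R =>
      (q.asIdeal : FractionalIdeal R⁰ F) ^ (-D (placeOf K q))).Finite := by
  have h := finite_exps (R := R) D
  rw [Filter.eventually_cofinite] at h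
  refine h.subset ?_
  intro q hq
  simp only [Function.mem_mulSupport] at hq
  simp only [Set.mem_ofPred_eq]
  intro h0
  apply hq
  rw [h0, zpow_zero]

theorem fi_ne_zero (D : Divisor K F) : fi R D ≠ 0 := by
  rw [fi, finprod_eq_prod _ (mulSupport_fi_finite D)]
  refine Finset.prod_ne_zero_iff.mpr fun q _ => ?_
  exact zpow_ne_zero _ (FractionalIdeal.coeIdeal_ne_zero.mpr q.ne_bot)

theorem fi_zero : fi R (0 : Divisor K F) = 1 := by
  simp [fi]

theorem fi_add (D D' : Divisor K F) : fi R (D + D') = fi R D * fi R D' := by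
  rw [fi, fi, fi, ← finprod_mul_distrib (mulSupport_fi_finite D) (mulSupport_fi_finite D')]
  refine finprod_congr fun q => ?_
  rw [← zpow_add₀ (FractionalIdeal.coeIdeal_ne_zero.mpr q.ne_bot), Finsupp.add_apply, neg_add]

/-- A nonzero fractional ideal is determined by its multiplicities. -/
theorem eq_fi_of_count {I : FractionalIdeal R⁰ F} (hI : I ≠ 0) (D : Divisor K F)
    (h : ∀ q : HeightOneSpectrum R, FractionalIdeal.count F q I = -D (placeOf K q)) :
    I = fi R D := by
  rw [fi, ← FractionalIdeal.finprod_heightOneSpectrum_factorization' F hI]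
  exact finprod_congr fun q => by rw [h q]

theorem mem_fi_iff (D : Divisor K F) (f : F) :
    f ∈ fi R D ↔ f = 0 ∨ ∀ v : Place K F, OnChart R v → -D v ≤ v.ord f := by
  rcases eq_or_ne f 0 with rfl | hf
  · simp only [true_or, iff_true]
    exact FractionalIdeal.zero_mem _
  rw [mem_iff_count_le (K := K) (fi_ne_zero D) hf]
  constructor
  · intro h
    refine Or.inr fun v hv => ?_
    obtain ⟨q, rfl⟩ := exists_placeOf_eq v hv
    have := h q
    rwa [count_fi] at this
  · rintro (h | h) q
    · exact absurd h hf
    · rw [count_fi]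
      exact h _ (onChart_placeOf q)

/-! ### The lattice of a divisor -/

variable (R) in
/-- The lattice `{f | f = 0 ∨ ∀ v on the chart, -D v ≤ ord_v f}`, an `R`-submodule of `F`. -/
def latt (D : Divisor K F) : Submodule R F := (fi R D : Submodule R F)

theorem mem_latt_iff (D : Divisor K F) (f : F) :
    f ∈ latt R D ↔ f = 0 ∨ ∀ v : Place K F, OnChart R v → -D v ≤ v.ord f := by
  rw [latt, FractionalIdeal.mem_coe]
  exact mem_fi_iff D f

theorem isUnit_latt (D : Divisor K F) : IsUnit (latt R D) :=
  (Ne.isUnit (fi_ne_zero (R := R) D)).map (FractionalIdeal.coeSubmoduleHom R⁰ F)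

theorem latt_add (D D' : Divisor K F) : latt R (D + D') = latt R D * latt R D' := by
  rw [latt, latt, latt, fi_add, FractionalIdeal.coe_mul]

theorem latt_zero : latt R (0 : Divisor K F) = 1 := by
  rw [latt, fi_zero, FractionalIdeal.coe_one]

theorem latt_ne_bot (D : Divisor K F) : latt R D ≠ ⊥ := by
  intro h
  apply fi_ne_zero (R := R) D
  rw [← FractionalIdeal.coeToSubmodule_eq_bot]
  exact h

/-- The minimum of `ord_v` on the lattice of `D` is `-D v` and is attained. -/
theorem exists_mem_latt_ord_eq (D : Divisor K F) (v : Place K F) (hv : OnChart R v) :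
    ∃ f : F, f ∈ latt R D ∧ f ≠ 0 ∧ v.ord f = -D v := by
  obtain ⟨q, rfl⟩ := exists_placeOf_eq v hv
  obtain ⟨f, hf, hf0, hford⟩ := exists_ord_eq_count (K := K) (fi_ne_zero (R := R) D) q
  exact ⟨f, hf, hf0, by rw [hford, count_fi]⟩

/-- A nonzero finitely generated submodule of `F` is (the submodule of) a nonzero fractional
ideal. -/
theorem exists_fractionalIdeal_eq {L : Submodule R F} (hfg : L.FG) (hne : L ≠ ⊥) :
    ∃ I : FractionalIdeal R⁰ F, I ≠ 0 ∧ (I : Submodule R F) = L := by
  refine ⟨⟨L, FractionalIdeal.isFractional_of_fg hfg⟩, ?_, rfl⟩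
  intro h
  apply hne
  have := congrArg (fun J : FractionalIdeal R⁰ F => (J : Submodule R F)) h
  simpa using this

end Chart

end

end Fermat.Agent.S27.H747
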