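import Fermat.Agent.S27.H747.PicClEmb
import Fermat.Agent.S27.Spec
import Fermat.Agent.S25.H565.DegreeD3
import Fermat.Agent.S25.H207.ChartCor

/-!
# S27 leaf PIC-CL (helper747): `Stmt.PicCl K F`

The divisor class of a degree-zero gluing datum on a curve model of `F`:
`cl : {G : M.GD // G.degree = 0} → Pic0 K F`, surjective, `cl G = cl G' ↔ G ≅ G'`,
additive on tensor products.  Route: lattice data `O(D)` (see `PicClAbs.lean`).
-/

set_option autoImplicit false
set_option linter.unusedSectionVars false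
set_option linter.unusedVariables false
set_option linter.style.longLine false
set_option linter.style.haveILetI false

universe u

namespace Fermat.Agent.S27.H747

open AlgebraicCurve IsDedekindDomain Fermat.Agent.Lib.FF Fermat.Agent.S25 Polynomial
open scoped nonZeroDivisors TensorProduct

noncomputable section

variable {K : Type u} [Field K] {F : Type u} [Field F] [Algebra K F]

/-- **PIC-CL** for a curve chart with compatible maps to `F`. -/
theorem picCl_of_chart [IsAlgClosed K] [IsCurveOver K F]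
    {B₀ B₁ B₀₁ : Type u} [CommRing B₀] [CommRing B₁] [CommRing B₀₁]
    [Algebra K B₀] [Algebra K B₁] [Algebra K B₀₁] [Algebra B₀ B₀₁] [Algebra B₁ B₀₁]
    [IsScalarTower K B₀ B₀₁] [IsScalarTower K B₁ B₀₁]
    {x : B₀} {y : B₁} {e : B₁ →ₐ[K] K} (hC : IsCurveChart K B₀ B₁ B₀₁ x y e)
    (j₀ : B₀ →ₐ[K] F) (j₁ : B₁ →ₐ[K] F) (j₀₁ : B₀₁ →ₐ[K] F)
    (h₀ : ∀ b : B₀, j₀₁ (algebraMap B₀ B₀₁ b) = j₀ b)
    (h₁ : ∀ b : B₁, j₀₁ (algebraMap B₁ B₀₁ b) = j₁ b)
    (hfrac : IsFracMap K F j₀₁) :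
    ∃ cl : {G : CurveGD K B₀ B₁ B₀₁ K // G.degree = 0} → Pic0 K F,
      Function.Surjective cl ∧ (∀ G G', cl G = cl G' ↔ G.1.IsIso G'.1) ∧
        ∀ (G G' : {G : CurveGD K B₀ B₁ B₀₁ K // G.degree = 0}) (G'' : CurveGD K B₀ B₁ B₀₁ K),
          IsTensor G.1 G'.1 G'' → ∃ h0 : G''.degree = 0, cl ⟨G'', h0⟩ = cl G + cl G' := by
  haveI := H207.isDedekindDomain_tensor_chart₀ hC K
  haveI := H207.isDedekindDomain_tensor_chart₁ hC K
  haveI := H565.chart_away₀ hC K
  haveI := H565.chart_away₁ hC K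
  have hxy : algebraMap (K ⊗[K] B₀) (K ⊗[K] B₀₁) ((1 : K) ⊗ₜ[K] x) *
      algebraMap (K ⊗[K] B₁) (K ⊗[K] B₀₁) ((1 : K) ⊗ₜ[K] y) = 1 := by
    show tensorMapRight K K B₀ B₀₁ ((1 : K) ⊗ₜ[K] x) *
      tensorMapRight K K B₁ B₀₁ ((1 : K) ⊗ₜ[K] y) = 1
    simp only [tensorMapRight, Algebra.TensorProduct.map_tmul, AlgHom.coe_id, id_eq,
      IsScalarTower.coe_toAlgHom', Algebra.TensorProduct.tmul_mul_tmul, mul_one, hC.mul_eq_one]
    rfl
  have hι₀ : ∀ r : K ⊗[K] B₀,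
      (j₀₁.comp (Algebra.TensorProduct.lid K B₀₁).toAlgHom)
        (algebraMap (K ⊗[K] B₀) (K ⊗[K] B₀₁) r) =
      (j₀.comp (Algebra.TensorProduct.lid K B₀).toAlgHom) r := by
    intro r
    show (j₀₁.comp (Algebra.TensorProduct.lid K B₀₁).toAlgHom) (tensorMapRight K K B₀ B₀₁ r) = _
    induction r using TensorProduct.induction_on with
    | zero => simp
    | tmul a b =>
      simp [tensorMapRight, h₀]
    | add r s hr hs => rw [map_add, map_add, hr, hs, map_add]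
  have hι₁ : ∀ r : K ⊗[K] B₁,
      (j₀₁.comp (Algebra.TensorProduct.lid K B₀₁).toAlgHom)
        (algebraMap (K ⊗[K] B₁) (K ⊗[K] B₀₁) r) =
      (j₁.comp (Algebra.TensorProduct.lid K B₁).toAlgHom) r := by
    intro r
    show (j₀₁.comp (Algebra.TensorProduct.lid K B₀₁).toAlgHom) (tensorMapRight K K B₁ B₀₁ r) = _
    induction r using TensorProduct.induction_on with
    | zero => simp
    | tmul a b =>
      simp [tensorMapRight, h₁]
    | add r s hr hs => rw [map_add, map_add, hr, hs, map_add]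
  have hinj : Function.Injective (j₀₁.comp (Algebra.TensorProduct.lid K B₀₁).toAlgHom) :=
    hfrac.1.comp (Algebra.TensorProduct.lid K B₀₁).injective
  have hfr : ∀ f : F, ∃ a b : K ⊗[K] B₀₁,
      (j₀₁.comp (Algebra.TensorProduct.lid K B₀₁).toAlgHom) b ≠ 0 ∧
      f * (j₀₁.comp (Algebra.TensorProduct.lid K B₀₁).toAlgHom) b =
        (j₀₁.comp (Algebra.TensorProduct.lid K B₀₁).toAlgHom) a := by
    intro f
    obtain ⟨a, b, hb, hab⟩ := hfrac.2 f
    refine ⟨(1 : K) ⊗ₜ[K] a, (1 : K) ⊗ₜ[K] b, ?_, ?_⟩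
    · simpa using hb
    · simpa using hab
  exact picCl_of_embeddings ((1 : K) ⊗ₜ[K] x) ((1 : K) ⊗ₜ[K] y) hxy
    (H565.chart_finite₀ hC K) (H565.chart_finite₁ hC K)
    (j₀.comp (Algebra.TensorProduct.lid K B₀).toAlgHom)
    (j₁.comp (Algebra.TensorProduct.lid K B₁).toAlgHom)
    (j₀₁.comp (Algebra.TensorProduct.lid K B₀₁).toAlgHom) hι₀ hι₁ hinj hfr
    (fun G => H565.D.finCoh hC G)

/-- **PIC-CL** (leaf of row S27, exact `Spec` shape). -/
theorem picCl (K F : Type u) [Field K] [Field F] [Algebra K F] : Stmt.PicCl K F := by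
  intro _ _ M
  exact picCl_of_chart M.Ch.isCurveChart M.j₀ M.j₁ M.j₀₁ M.j₀₁_algebraMap₀ M.j₀₁_algebraMap₁
    M.isFracMap

end

end Fermat.Agent.S27.H747
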