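import Fermat.Agent.S27.H747.LattFrame
import Fermat.Agent.S27.H747.LattIso
import Fermat.Agent.S27.H747.LattDeg

/-!
# S27 / PIC-CL (helper747): the divisor class of a gluing datum, abstract two-chart setting

`picCl_abstract` : for a two-chart cospan `R₀ → R₀₁ ← R₁` of Dedekind domains inside `F` covering
all places (`IsFFCospan`), with finite cohomology, over an algebraically closed `K`:
there is `cl : {G // deg G = 0} → Pic⁰(F)`, surjective, `cl G = cl G' ↔ G ≅ G'`, additive on
tensor products.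
-/

set_option autoImplicit false
set_option linter.unusedSectionVars false
set_option linter.unusedVariables false
set_option linter.style.longLine false
set_option linter.style.haveILetI false

universe u

namespace Fermat.Agent.S27.H747

open AlgebraicCurve IsDedekindDomain Fermat.Agent.Lib.FF Fermat.Agent.S25
open scoped nonZeroDivisors TensorProduct

noncomputable section

variable {K : Type u} [Field K] {F : Type u} [Field F] [Algebra K F]

theorem pic0_mk_eq_iff (D D' : Divisor.degZero (K := K) (F := F)) :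
    Pic0.mk D = Pic0.mk D' ↔
      (D : Divisor K F) - D' ∈ Divisor.principal (K := K) (F := F) := by
  unfold Pic0.mk
  rw [QuotientAddGroup.eq, AddSubgroup.mem_addSubgroupOf]
  rw [← neg_mem_iff (H := Divisor.principal (K := K) (F := F))]
  have : -((↑(-D + D') : Divisor K F)) = (D : Divisor K F) - D' := by
    push_cast
    abel
  rw [this]

variable {R₀ R₁ R₀₁ : Type u} [CommRing R₀] [CommRing R₁] [CommRing R₀₁]
  [Algebra K R₀] [Algebra K R₁] [Algebra K R₀₁] [Algebra R₀ R₀₁] [Algebra R₁ R₀₁]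
  [IsScalarTower K R₀ R₀₁] [IsScalarTower K R₁ R₀₁]
  [Algebra R₀ F] [Algebra R₁ F] [Algebra R₀₁ F]
  [IsScalarTower R₀ R₀₁ F] [IsScalarTower R₁ R₀₁ F]
  [IsScalarTower K R₀ F] [IsScalarTower K R₁ F] [IsScalarTower K R₀₁ F]
  [IsDedekindDomain R₀] [IsDedekindDomain R₁] [IsDedekindDomain R₀₁]
  [IsFractionRing R₀ F] [IsFractionRing R₁ F] [IsFractionRing R₀₁ F]
  {x : R₀} {y : R₁}
  [IsAlgClosed K] [IsCurveOver K F]

/-- **PIC-CL**, abstract form. -/
theorem picCl_abstract (h : IsFFCospan K F R₀₁ x y)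
    (hfin : ∀ G : GlueDatum K R₀ R₁ R₀₁, H565.FinCoh G.cech) :
    ∃ cl : {G : GlueDatum K R₀ R₁ R₀₁ // G.degree = 0} → Pic0 K F,
      Function.Surjective cl ∧ (∀ G G', cl G = cl G' ↔ G.1.IsIso G'.1) ∧
        ∀ (G G' : {G : GlueDatum K R₀ R₁ R₀₁ // G.degree = 0}) (G'' : GlueDatum K R₀ R₁ R₀₁),
          IsTensor G.1 G'.1 G'' → ∃ h0 : G''.degree = 0, cl ⟨G'', h0⟩ = cl G + cl G' := by
  classical
  have hfin' : ∀ D : Divisor K F, H565.FinCoh (latticeDatum h D).cech := fun D => hfin _
  -- the divisor of a datum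
  choose dv hdv using fun G : GlueDatum K R₀ R₁ R₀₁ => exists_isIso_latticeDatum h G
  have hdeg : ∀ G : GlueDatum K R₀ R₁ R₀₁, Divisor.degree (dv G) = G.degree := fun G => by
    rw [← degree_latticeDatum h hfin', H310.degree_eq_of_isIso (hdv G)]
  have hmem : ∀ G : {G : GlueDatum K R₀ R₁ R₀₁ // G.degree = 0},
      dv G.1 ∈ Divisor.degZero (K := K) (F := F) := fun G => by
    rw [Divisor.mem_degZero, hdeg, G.2]
  -- key: two data are isomorphic iff their divisors differ by a principal divisor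
  have hiso : ∀ G G' : GlueDatum K R₀ R₁ R₀₁, G.IsIso G' ↔
      dv G - dv G' ∈ Divisor.principal (K := K) (F := F) := by
    intro G G'
    rw [← isIso_latticeDatum_iff h]
    constructor
    · intro hGG'
      exact H325.isIso_trans (H325.isIso_symm (hdv G)) (H325.isIso_trans hGG' (hdv G'))
    · intro hDD'
      exact H325.isIso_trans (hdv G) (H325.isIso_trans hDD' (H325.isIso_symm (hdv G')))
  refine ⟨fun G => Pic0.mk ⟨dv G.1, hmem G⟩, ?_, ?_, ?_⟩
  · intro c
    obtain ⟨⟨D, hD⟩, rfl⟩ := Pic0.mk_surjective c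
    have hdeg0 : (latticeDatum h D).degree = 0 := by
      rw [degree_latticeDatum h hfin']; exact hD
    refine ⟨⟨latticeDatum h D, hdeg0⟩, ?_⟩
    rw [pic0_mk_eq_iff]
    show dv (latticeDatum h D) - D ∈ _
    rw [← isIso_latticeDatum_iff h]
    exact H325.isIso_symm (hdv (latticeDatum h D))
  · intro G G'
    rw [pic0_mk_eq_iff]
    exact (hiso G.1 G'.1).symm
  · intro G G' G'' hT
    have hiso'' : G''.IsIso (latticeDatum h (dv G.1 + dv G'.1)) :=
      H323.isTensor_isIso_of_isIso_h323 hT (isTensor_latticeDatum h (dv G.1) (dv G'.1))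
        (hdv G.1) (hdv G'.1)
    have hdeg'' : G''.degree = 0 := by
      rw [H310.degree_eq_of_isIso hiso'', degree_latticeDatum h hfin', map_add, hdeg, hdeg,
        G.2, G'.2, add_zero]
    refine ⟨hdeg'', ?_⟩
    rw [← Pic0.mk_add, pic0_mk_eq_iff]
    show dv G'' - (dv G.1 + dv G'.1) ∈ _
    rw [← isIso_latticeDatum_iff h]
    exact H325.isIso_trans (H325.isIso_symm (hdv G'')) hiso''

end

end Fermat.Agent.S27.H747
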