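import Fermat.Agent.S27.H747.PicClAbs
import Fermat.Agent.S27.H747.ChartCover

/-!
# S27 / PIC-CL (helper747): from embeddings of the chart rings into `F`

`picCl_of_embeddings` : PIC-CL for a cospan `R₀ → R₀₁ ← R₁` of `K`-algebras (`R₀`, `R₁` Dedekind,
finite over `K[x]`, `K[y]`, `R₀₁ = R₀[1/x] = R₁[1/y]`, `x y = 1`) together with compatible
`K`-algebra maps to `F` exhibiting `F` as the field of fractions of `R₀₁`.
-/

set_option autoImplicit false
set_option linter.unusedSectionVars false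
set_option linter.unusedVariables false
set_option linter.style.longLine false
set_option linter.style.haveILetI false

universe u

namespace Fermat.Agent.S27.H747

open AlgebraicCurve IsDedekindDomain Fermat.Agent.Lib.FF Fermat.Agent.S25 Polynomial
open scoped nonZeroDivisors

noncomputable section

variable {K : Type u} [Field K] {F : Type u} [Field F] [Algebra K F]

theorem isFractionRing_of_away {R R' : Type u} [CommRing R] [CommRing R'] [IsDomain R]
    [Algebra R R'] [Algebra R F] [Algebra R' F] [IsScalarTower R R' F] [IsFractionRing R' F]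
    (x : R) [IsLocalization.Away x R'] : IsFractionRing R F := by
  have hu : IsUnit (algebraMap R R' x) := IsLocalization.Away.algebraMap_isUnit x
  haveI : Nontrivial R' := (algebraMap R' F).domain_nontrivial
  have hinj' : Function.Injective (algebraMap R' F) := IsFractionRing.injective R' F
  have hx0 : x ≠ 0 := by
    rintro rfl
    rw [map_zero] at hu
    exact not_isUnit_zero hu
  have hinj : Function.Injective (algebraMap R R') :=
    IsLocalization.injective R' (powers_le_nonZeroDivisors_of_noZeroDivisors hx0)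
  have hinjF : Function.Injective (algebraMap R F) := by
    rw [IsScalarTower.algebraMap_eq R R' F]
    exact hinj'.comp hinj
  haveI : FaithfulSMul R F := (faithfulSMul_iff_algebraMap_injective R F).mpr hinjF
  have hX : algebraMap R F x ≠ 0 := (map_ne_zero_iff _ hinjF).mpr hx0
  refine IsFractionRing.of_field R F fun z => ?_
  obtain ⟨a, b, hb, rfl⟩ := IsFractionRing.div_surjective (A := R') z
  obtain ⟨n, a', ha'⟩ := IsLocalization.Away.surj x a
  obtain ⟨m, b', hb'⟩ := IsLocalization.Away.surj x b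
  have hA := congrArg (algebraMap R' F) ha'
  have hB := congrArg (algebraMap R' F) hb'
  rw [map_mul, map_pow, ← IsScalarTower.algebraMap_apply R R' F,
    ← IsScalarTower.algebraMap_apply R R' F] at hA hB
  have hb0 : algebraMap R' F b ≠ 0 :=
    (map_ne_zero_iff _ hinj').mpr (nonZeroDivisors.ne_zero hb)
  have hb'0 : algebraMap R F b' ≠ 0 := by
    rw [← hB]; exact mul_ne_zero hb0 (pow_ne_zero m hX)
  refine ⟨a' * x ^ m, b' * x ^ n, ?_⟩
  rw [map_mul, map_mul, map_pow, map_pow, ← hA, ← hB]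
  field_simp

/-- **PIC-CL** for a cospan of rings embedded in `F`. -/
theorem picCl_of_embeddings [IsAlgClosed K] [IsCurveOver K F]
    {R₀ R₁ R₀₁ : Type u} [CommRing R₀] [CommRing R₁] [CommRing R₀₁]
    [Algebra K R₀] [Algebra K R₁] [Algebra K R₀₁] [Algebra R₀ R₀₁] [Algebra R₁ R₀₁]
    [IsScalarTower K R₀ R₀₁] [IsScalarTower K R₁ R₀₁]
    [IsDedekindDomain R₀] [IsDedekindDomain R₁]
    (x : R₀) (y : R₁) [IsLocalization.Away x R₀₁] [IsLocalization.Away y R₀₁]
    (hxy : algebraMap R₀ R₀₁ x * algebraMap R₁ R₀₁ y = 1)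
    (hfin₀ : (Polynomial.aeval x : K[X] →ₐ[K] R₀).Finite)
    (hfin₁ : (Polynomial.aeval y : K[X] →ₐ[K] R₁).Finite)
    (ι₀ : R₀ →ₐ[K] F) (ι₁ : R₁ →ₐ[K] F) (ι₀₁ : R₀₁ →ₐ[K] F)
    (h₀ : ∀ r, ι₀₁ (algebraMap R₀ R₀₁ r) = ι₀ r) (h₁ : ∀ r, ι₀₁ (algebraMap R₁ R₀₁ r) = ι₁ r)
    (hinj : Function.Injective ι₀₁)
    (hfrac : ∀ f : F, ∃ a b : R₀₁, ι₀₁ b ≠ 0 ∧ f * ι₀₁ b = ι₀₁ a)
    (hfin : ∀ G : GlueDatum K R₀ R₁ R₀₁, H565.FinCoh G.cech) :
    ∃ cl : {G : GlueDatum K R₀ R₁ R₀₁ // G.degree = 0} → Pic0 K F,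
      Function.Surjective cl ∧ (∀ G G', cl G = cl G' ↔ G.1.IsIso G'.1) ∧
        ∀ (G G' : {G : GlueDatum K R₀ R₁ R₀₁ // G.degree = 0}) (G'' : GlueDatum K R₀ R₁ R₀₁),
          IsTensor G.1 G'.1 G'' → ∃ h0 : G''.degree = 0, cl ⟨G'', h0⟩ = cl G + cl G' := by
  letI : Algebra R₀ F := ι₀.toRingHom.toAlgebra
  letI : Algebra R₁ F := ι₁.toRingHom.toAlgebra
  letI : Algebra R₀₁ F := ι₀₁.toRingHom.toAlgebra
  haveI : IsScalarTower K R₀ F := IsScalarTower.of_algebraMap_eq fun a => (ι₀.commutes a).symm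
  haveI : IsScalarTower K R₁ F := IsScalarTower.of_algebraMap_eq fun a => (ι₁.commutes a).symm
  haveI : IsScalarTower K R₀₁ F := IsScalarTower.of_algebraMap_eq fun a => (ι₀₁.commutes a).symm
  haveI : IsScalarTower R₀ R₀₁ F := IsScalarTower.of_algebraMap_eq fun r => (h₀ r).symm
  haveI : IsScalarTower R₁ R₀₁ F := IsScalarTower.of_algebraMap_eq fun r => (h₁ r).symm
  have hinj' : Function.Injective (algebraMap R₀₁ F) := hinj
  haveI : FaithfulSMul R₀₁ F := (faithfulSMul_iff_algebraMap_injective R₀₁ F).mpr hinj'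
  haveI : IsFractionRing R₀₁ F := by
    refine IsFractionRing.of_field R₀₁ F fun z => ?_
    obtain ⟨a, b, hb, hab⟩ := hfrac z
    exact ⟨a, b, by
      show z = ι₀₁ a / ι₀₁ b
      rw [← hab, mul_div_assoc, div_self hb, mul_one]⟩
  haveI : IsDomain R₀₁ := hinj'.isDomain (algebraMap R₀₁ F)
  haveI : IsFractionRing R₀ F := isFractionRing_of_away (R' := R₀₁) x
  haveI : IsFractionRing R₁ F := isFractionRing_of_away (R' := R₀₁) y
  have hx0 : x ≠ 0 := by
    rintro rfl
    have hu : IsUnit (algebraMap R₀ R₀₁ (0 : R₀)) := IsLocalization.Away.algebraMap_isUnit _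
    rw [map_zero] at hu
    exact not_isUnit_zero hu
  haveI : IsDedekindDomain R₀₁ :=
    IsLocalization.isDedekindDomain R₀ (powers_le_nonZeroDivisors_of_noZeroDivisors hx0) R₀₁
  have hxyF : algebraMap R₀ F x * algebraMap R₁ F y = 1 := by
    rw [IsScalarTower.algebraMap_apply R₀ R₀₁ F, IsScalarTower.algebraMap_apply R₁ R₀₁ F,
      ← map_mul, hxy, map_one]
  have hcs : IsFFCospan K F R₀₁ x y :=
    { away₀ := inferInstance
      away₁ := inferInstance
      mul_eq_one := hxy
      cover := fun v => by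
        rcases v.toValuationSubring.mem_or_inv_mem (algebraMap R₀ F x) with hx | hx
        · exact Or.inl (mem_of_finite_aeval x hfin₀ v hx)
        · right
          have : (algebraMap R₀ F x)⁻¹ = algebraMap R₁ F y :=
            inv_eq_of_mul_eq_one_right hxyF
          rw [this] at hx
          exact mem_of_finite_aeval y hfin₁ v hx }
  exact picCl_abstract hcs hfin

end

end Fermat.Agent.S27.H747
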